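/-
ALPHA (finite flat models), package P1 (helper1), part 1: **orders in function algebras**.

`K` a field, `R` a domain with an injective map `R → K`, `X` a finite set.  An `R`-submodule `M` of
`X → K` is *good* (`AlphGood`) if it is the `R`-span of a finite `K`-linearly independent family
(i.e. `M` is `R`-free and `K ⊗_R M ↪ K^X`).  Good subalgebras `H₁ ≤ K^X`, `H₂ ≤ K^Y` satisfy:
`H₁ ⊗_R H₂ → K^(X × Y)` is injective with good image (`alphMul_injective`, `alphGood_range_alphMul`).
-/
import Mathlib

set_option autoImplicit false
set_option linter.unusedSectionVars false
set_option linter.unusedVariables false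
set_option linter.style.haveILetI false

open scoped TensorProduct

namespace Fermat.Agent.Alpha

section Pre

variable (R : Type) {K : Type} [CommSemiring R] [CommSemiring K] [Algebra R K] {X Y Z : Type}

/-- precomposition with a map, as an algebra homomorphism of function algebras -/
def alphPre (f : X → Y) : (Y → K) →ₐ[R] (X → K) where
  toFun g := g ∘ f
  map_one' := rfl
  map_mul' _ _ := rfl
  map_zero' := rfl
  map_add' _ _ := rfl
  commutes' _ := rfl

@[simp] theorem alphPre_apply (f : X → Y) (g : Y → K) (x : X) : alphPre R f g x = g (f x) := rfl

end Pre

section Good

variable {R K : Type} [CommRing R] [Field K] [Algebra R K] {X Y : Type}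

/-- a submodule of `X → K` which is the `R`-span of a finite `K`-linearly independent family -/
def AlphGood (M : Submodule R (X → K)) : Prop :=
  ∃ (n : ℕ) (b : Fin n → (X → K)), LinearIndependent K b ∧ M = Submodule.span R (Set.range b)

variable (hinj : Function.Injective (algebraMap R K))

include hinj in
/-- `K`-linearly independent families are `R`-linearly independent -/
theorem alph_indep_restrict {ι : Type} {b : ι → (X → K)} (hb : LinearIndependent K b) :
    LinearIndependent R b := by
  rw [linearIndependent_iff'] at hb ⊢
  intro s g hg i hi
  have h1 : ∑ j ∈ s, (algebraMap R K (g j)) • b j = 0 := by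
    rw [← hg]
    refine Finset.sum_congr rfl fun j _ => ?_
    rw [algebraMap_smul]
  have h2 := hb s (fun j => algebraMap R K (g j)) h1 i hi
  exact hinj (by rw [h2, map_zero])

end Good

end Fermat.Agent.Alpha
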