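/-
ALPHA, package P1 (helper1), part 2: **the external product map `H₁ ⊗_R H₂ → K^(X × Y)`** of two
orders in function algebras, its injectivity and the goodness of its image.
-/
import Mathlib
import Fermat.Agent.Lib.Alpha.Hopf.Basic

set_option autoImplicit false
set_option linter.unusedSectionVars false
set_option linter.unusedVariables false
set_option linter.style.haveILetI false

open scoped TensorProduct

namespace Fermat.Agent.Alpha

section LinAlg

variable {R : Type} [CommRing R] {M N : Type} [AddCommMonoid M] [Module R M] [AddCommMonoid N]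
  [Module R N]

/-- a linear map which sends a (finite) basis to a linearly independent family is injective -/
theorem alph_injective_of_basis {ι : Type} [Fintype ι] (B : Module.Basis ι R M) (f : M →ₗ[R] N)
    (h : LinearIndependent R (fun i => f (B i))) : Function.Injective f := by
  rw [linearIndependent_iff_injective_fintypeLinearCombination] at h
  have h1 : ∀ x, f x = Fintype.linearCombination R (fun i => f (B i)) (B.equivFun x) := by
    intro x
    rw [Fintype.linearCombination_apply]
    conv_lhs => rw [← B.sum_equivFun x]
    rw [map_sum]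
    exact Finset.sum_congr rfl fun i _ => map_smul f _ _
  intro x y hxy
  rw [h1, h1] at hxy
  exact B.equivFun.injective (h hxy)

end LinAlg

section Prod

variable {K : Type} [Field K] {X Y : Type}

/-- products of two `K`-linearly independent families of functions are linearly independent -/
theorem alph_indep_prod {ι κ : Type} [Fintype ι] [Fintype κ] {b : ι → (X → K)} {c : κ → (Y → K)}
    (hb : LinearIndependent K b) (hc : LinearIndependent K c) :
    LinearIndependent K (fun ij : ι × κ => fun p : X × Y => b ij.1 p.1 * c ij.2 p.2) := by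
  rw [Fintype.linearIndependent_iff] at hb hc ⊢
  intro g hg ij
  -- for fixed `y`, the coefficients of the `b i`
  have h1 : ∀ (y : Y) (i : ι), ∑ j, g (i, j) * c j y = 0 := by
    intro y
    apply hb
    funext x
    have h2 := congrFun hg (x, y)
    simp only [Finset.sum_apply, Pi.smul_apply, smul_eq_mul, Pi.zero_apply,
      Fintype.sum_prod_type] at h2
    simp only [Finset.sum_apply, Pi.smul_apply, smul_eq_mul, Pi.zero_apply, Finset.sum_mul]
    rw [← h2]
    refine Finset.sum_congr rfl fun i _ => ?_
    refine Finset.sum_congr rfl fun j _ => ?_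
    ring
  have h3 : ∀ i : ι, ∀ j : κ, g (i, j) = 0 := by
    intro i
    apply hc
    funext y
    rw [Finset.sum_apply, Pi.zero_apply, ← h1 y i]
    refine Finset.sum_congr rfl fun j _ => ?_
    rw [Pi.smul_apply, smul_eq_mul]
  exact h3 ij.1 ij.2

end Prod

section Mul

variable {R K : Type} [CommRing R] [Field K] [Algebra R K] {X Y : Type}
variable (H₁ : Subalgebra R (X → K)) (H₂ : Subalgebra R (Y → K))

/-- `a ⊗ b ↦ ((x, y) ↦ a x * b y)` -/
noncomputable def alphMul : ↥H₁ ⊗[R] ↥H₂ →ₐ[R] (X × Y → K) :=
  Algebra.TensorProduct.productMap ((alphPre R Prod.fst).comp H₁.val)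
    ((alphPre R Prod.snd).comp H₂.val)

@[simp] theorem alphMul_tmul (a : ↥H₁) (b : ↥H₂) (p : X × Y) :
    alphMul H₁ H₂ (a ⊗ₜ[R] b) p = (a : X → K) p.1 * (b : Y → K) p.2 := by
  rw [alphMul, Algebra.TensorProduct.productMap_apply_tmul]
  rfl

variable (hinj : Function.Injective (algebraMap R K))

/-- a basis of a good subalgebra which is `K`-linearly independent -/
theorem alph_exists_basis {H : Subalgebra R (X → K)} (hinj : Function.Injective (algebraMap R K))
    (h : AlphGood H.toSubmodule) :
    ∃ (n : ℕ) (B : Module.Basis (Fin n) R ↥H), LinearIndependent K (fun i => ((B i : ↥H) : X → K)) := by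
  obtain ⟨n, b, hb, hsp⟩ := h
  have hmem : ∀ i, b i ∈ H := fun i => by
    have : b i ∈ H.toSubmodule := by
      rw [hsp]
      exact Submodule.subset_span ⟨i, rfl⟩
    exact this
  set b' : Fin n → ↥H := fun i => ⟨b i, hmem i⟩ with hb'
  have hli : LinearIndependent R b' := by
    have h1 : LinearIndependent R (fun i => H.val.toLinearMap (b' i)) :=
      alph_indep_restrict hinj hb
    exact LinearIndependent.of_comp H.val.toLinearMap h1
  have hspan : ⊤ ≤ Submodule.span R (Set.range b') := by
    rintro ⟨x, hx⟩ -
    have hx' : x ∈ Submodule.span R (Set.range b) := by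
      rw [← hsp]
      exact hx
    have key : ∀ y ∈ Submodule.span R (Set.range b), ∀ hy : y ∈ H,
        (⟨y, hy⟩ : ↥H) ∈ Submodule.span R (Set.range b') := by
      intro y hy
      induction hy using Submodule.span_induction with
      | mem y hy =>
        intro hyH
        obtain ⟨i, rfl⟩ := hy
        exact Submodule.subset_span ⟨i, rfl⟩
      | zero =>
        intro _
        exact Submodule.zero_mem _
      | add y z hy hz ihy ihz =>
        intro hyz
        have hyH : y ∈ H := by
          have : y ∈ H.toSubmodule := by rw [hsp]; exact hy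
          exact this
        have hzH : z ∈ H := by
          have : z ∈ H.toSubmodule := by rw [hsp]; exact hz
          exact this
        have := Submodule.add_mem _ (ihy hyH) (ihz hzH)
        exact this
      | smul r y hy ihy =>
        intro hry
        have hyH : y ∈ H := by
          have : y ∈ H.toSubmodule := by rw [hsp]; exact hy
          exact this
        have := Submodule.smul_mem _ r (ihy hyH)
        exact this
    exact key x hx' hx
  refine ⟨n, Module.Basis.mk hli hspan, ?_⟩
  have : (fun i => (((Module.Basis.mk hli hspan) i : ↥H) : X → K)) = b := by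
    funext i
    rw [Module.Basis.mk_apply]
  rw [this]
  exact hb

include hinj in
/-- **injectivity of the external product** -/
theorem alphMul_injective (h₁ : AlphGood H₁.toSubmodule) (h₂ : AlphGood H₂.toSubmodule) :
    Function.Injective (alphMul H₁ H₂) := by
  obtain ⟨n, B, hB⟩ := alph_exists_basis hinj h₁
  obtain ⟨m, C, hC⟩ := alph_exists_basis hinj h₂
  have h2 := alph_indep_restrict hinj (alph_indep_prod hB hC)
  have hfun : (fun ij => (alphMul H₁ H₂).toLinearMap ((B.tensorProduct C) ij))
      = (fun ij : Fin n × Fin m => fun p : X × Y =>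
        ((B ij.1 : ↥H₁) : X → K) p.1 * ((C ij.2 : ↥H₂) : Y → K) p.2) := by
    funext ij p
    rw [Module.Basis.tensorProduct_apply]
    exact alphMul_tmul H₁ H₂ _ _ p
  have h3 : LinearIndependent R (fun ij => (alphMul H₁ H₂).toLinearMap ((B.tensorProduct C) ij)) := by
    rw [hfun]
    exact h2
  exact alph_injective_of_basis (B.tensorProduct C) (alphMul H₁ H₂).toLinearMap h3

include hinj in
/-- the image of the external product is good -/
theorem alphGood_range_alphMul (h₁ : AlphGood H₁.toSubmodule) (h₂ : AlphGood H₂.toSubmodule) :
    AlphGood (alphMul H₁ H₂).range.toSubmodule := by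
  obtain ⟨n, B, hB⟩ := alph_exists_basis hinj h₁
  obtain ⟨m, C, hC⟩ := alph_exists_basis hinj h₂
  have h2 := alph_indep_prod hB hC
  set e := (finProdFinEquiv : Fin n × Fin m ≃ Fin (n * m)) with he
  refine ⟨n * m, fun k => fun p : X × Y =>
    ((B (e.symm k).1 : ↥H₁) : X → K) p.1 * ((C (e.symm k).2 : ↥H₂) : Y → K) p.2, ?_, ?_⟩
  · exact h2.comp e.symm e.symm.injective
  · apply le_antisymm
    · rintro f ⟨t, rfl⟩
      have ht : t ∈ Submodule.span R (Set.range (B.tensorProduct C)) := by
        rw [Module.Basis.span_eq]
        exact Submodule.mem_top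
      induction ht using Submodule.span_induction with
      | mem t ht =>
        obtain ⟨ij, rfl⟩ := ht
        refine Submodule.subset_span ⟨e ij, ?_⟩
        rw [Module.Basis.tensorProduct_apply]
        funext p
        simp only [Equiv.symm_apply_apply]
        exact (alphMul_tmul H₁ H₂ _ _ p).symm
      | zero =>
        rw [AlgHom.toRingHom_eq_coe, RingHom.coe_coe, map_zero]
        exact Submodule.zero_mem _
      | add y z _ _ ihy ihz =>
        rw [AlgHom.toRingHom_eq_coe, RingHom.coe_coe, map_add]
        exact Submodule.add_mem _ ihy ihz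
      | smul r y _ ihy =>
        rw [AlgHom.toRingHom_eq_coe, RingHom.coe_coe, map_smul]
        exact Submodule.smul_mem _ r ihy
    · rw [Submodule.span_le]
      rintro f ⟨k, rfl⟩
      refine ⟨B (e.symm k).1 ⊗ₜ[R] C (e.symm k).2, ?_⟩
      funext p
      exact alphMul_tmul H₁ H₂ _ _ p

end Mul

end Fermat.Agent.Alpha
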