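/-
ALPHA, package P1 (helper1), part 3: **the Hopf algebra structure on an order** `H ≤ K^V` (`V` a
finite abelian group) which is good, stable under `f ↦ ((x, y) ↦ f (x + y))` (with values in the
image of `H ⊗ H`), under `f ↦ f ∘ neg`, and with `f 0 ∈ R`.
-/
import Mathlib
import Fermat.Agent.Lib.Alpha.Hopf.Mul

set_option autoImplicit false
set_option linter.unusedSectionVars false
set_option linter.unusedVariables false
set_option linter.style.haveILetI false

open scoped TensorProduct

namespace Fermat.Agent.Alpha

/-- a Hopf order in the function algebra `K^V` -/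
structure AlphOrd (R K V : Type) [CommRing R] [Field K] [Algebra R K] [AddCommGroup V] where
  /-- the order -/
  carrier : Subalgebra R (V → K)
  inj : Function.Injective (algebraMap R K)
  good : AlphGood carrier.toSubmodule
  comul : ∀ f ∈ carrier, (fun p : V × V => f (p.1 + p.2)) ∈ (alphMul carrier carrier).range
  counit : ∀ f ∈ carrier, f 0 ∈ (algebraMap R K).range
  anti : ∀ f ∈ carrier, (fun x => f (-x)) ∈ carrier

namespace AlphOrd

variable {R K V : Type} [CommRing R] [Field K] [Algebra R K] [AddCommGroup V] (M : AlphOrd R K V)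

/-- the underlying type -/
abbrev H : Type := ↥M.carrier

theorem mul_injective : Function.Injective (alphMul M.carrier M.carrier) :=
  alphMul_injective M.carrier M.carrier M.inj M.good M.good

/-- `H ⊗ H ≃ image` -/
noncomputable def mulEquiv : M.H ⊗[R] M.H ≃ₐ[R] ↥(alphMul M.carrier M.carrier).range :=
  AlgEquiv.ofInjective (alphMul M.carrier M.carrier) M.mul_injective

theorem mulEquiv_coe (t : M.H ⊗[R] M.H) :
    ((M.mulEquiv t : ↥(alphMul M.carrier M.carrier).range) : V × V → K)
      = alphMul M.carrier M.carrier t := rfl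

/-- `f ↦ ((x, y) ↦ f (x + y))` -/
noncomputable def addHom : M.H →ₐ[R] (V × V → K) :=
  (alphPre R (fun p : V × V => p.1 + p.2)).comp M.carrier.val

theorem addHom_apply (f : M.H) (p : V × V) : M.addHom f p = (f : V → K) (p.1 + p.2) := rfl

/-- the comultiplication -/
noncomputable def Δ : M.H →ₐ[R] M.H ⊗[R] M.H :=
  (M.mulEquiv.symm : ↥(alphMul M.carrier M.carrier).range →ₐ[R] M.H ⊗[R] M.H).comp
    (M.addHom.codRestrict (alphMul M.carrier M.carrier).range (fun f => M.comul f f.2))

theorem mul_Δ (f : M.H) (p : V × V) :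
    alphMul M.carrier M.carrier (M.Δ f) p = (f : V → K) (p.1 + p.2) := by
  have h1 : M.mulEquiv (M.Δ f)
      = M.addHom.codRestrict (alphMul M.carrier M.carrier).range (fun f => M.comul f f.2) f := by
    rw [Δ, AlgHom.comp_apply]
    exact M.mulEquiv.apply_symm_apply _
  have h2 := congrArg (fun g : ↥(alphMul M.carrier M.carrier).range => (g : V × V → K) p) h1
  exact h2

/-- evaluation at `0` -/
noncomputable def evZero : M.H →ₐ[R] K :=
  (Pi.evalAlgHom R (fun _ : V => K) 0).comp M.carrier.val

theorem evZero_apply (f : M.H) : M.evZero f = (f : V → K) 0 := rfl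

/-- `R ≃ image of R in K` -/
noncomputable def ofIdEquiv : R ≃ₐ[R] ↥(Algebra.ofId R K).range :=
  AlgEquiv.ofInjective (Algebra.ofId R K) M.inj

/-- the counit -/
noncomputable def ε : M.H →ₐ[R] R :=
  (M.ofIdEquiv.symm : ↥(Algebra.ofId R K).range →ₐ[R] R).comp
    (M.evZero.codRestrict (Algebra.ofId R K).range (fun f => M.counit f f.2))

theorem algebraMap_ε (f : M.H) : algebraMap R K (M.ε f) = (f : V → K) 0 := by
  have h1 : M.ofIdEquiv (M.ε f)
      = M.evZero.codRestrict (Algebra.ofId R K).range (fun f => M.counit f f.2) f := by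
    rw [ε, AlgHom.comp_apply]
    exact M.ofIdEquiv.apply_symm_apply _
  have h2 := congrArg (fun g : ↥(Algebra.ofId R K).range => (g : K)) h1
  exact h2

/-- the antipode -/
noncomputable def S : M.H →ₐ[R] M.H :=
  ((alphPre R (fun x : V => -x)).comp M.carrier.val).codRestrict M.carrier
    (fun f => M.anti f f.2)

theorem S_apply (f : M.H) (x : V) : ((M.S f : M.H) : V → K) x = (f : V → K) (-x) := rfl

end AlphOrd

end Fermat.Agent.Alpha
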