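/-
ALPHA, package P1 (helper1), part 4: **the bialgebra / Hopf algebra instance** on a Hopf order.
All axioms are checked after applying the injective evaluation maps `H^{⊗k} → K^(V^k)`.
-/
import Mathlib
import Fermat.Agent.Lib.Alpha.Hopf.Struct

set_option autoImplicit false
set_option linter.unusedSectionVars false
set_option linter.unusedVariables false
set_option linter.style.haveILetI false

open scoped TensorProduct

namespace Fermat.Agent.Alpha

namespace AlphOrd

variable {R K V : Type} [CommRing R] [Field K] [Algebra R K] [AddCommGroup V] (M : AlphOrd R K V)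

/-! ### The triple evaluation map -/

/-- `H ⊗ (H ⊗ H) → K^(V × (V × V))` -/
noncomputable def mul₃ : M.H ⊗[R] (M.H ⊗[R] M.H) →ₐ[R] (V × (V × V) → K) :=
  (alphMul M.carrier (alphMul M.carrier M.carrier).range).comp
    (Algebra.TensorProduct.map (AlgHom.id R M.H) M.mulEquiv.toAlgHom)

theorem mul₃_tmul (a : M.H) (s : M.H ⊗[R] M.H) (x : V) (p : V × V) :
    M.mul₃ (a ⊗ₜ[R] s) (x, p) = (a : V → K) x * alphMul M.carrier M.carrier s p := by
  rw [mul₃, AlgHom.comp_apply, Algebra.TensorProduct.map_tmul, alphMul_tmul]
  rfl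

theorem mul₃_injective : Function.Injective M.mul₃ := by
  have h1 : Function.Injective (alphMul M.carrier (alphMul M.carrier M.carrier).range) :=
    alphMul_injective _ _ M.inj M.good (alphGood_range_alphMul _ _ M.inj M.good M.good)
  have h2 : Function.Injective (Algebra.TensorProduct.map (AlgHom.id R M.H)
      M.mulEquiv.toAlgHom) := by
    have : (Algebra.TensorProduct.map (AlgHom.id R M.H) M.mulEquiv.toAlgHom
        : M.H ⊗[R] (M.H ⊗[R] M.H) → _)
        = (Algebra.TensorProduct.congr (AlgEquiv.refl : M.H ≃ₐ[R] M.H) M.mulEquiv) := by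
      funext t
      rfl
    rw [this]
    exact (Algebra.TensorProduct.congr (AlgEquiv.refl : M.H ≃ₐ[R] M.H) M.mulEquiv).injective
  rw [mul₃]
  exact h1.comp h2

/-! ### Evaluation lemmas -/

theorem mul₃_map_id_Δ (t : M.H ⊗[R] M.H) (x y z : V) :
    M.mul₃ (Algebra.TensorProduct.map (AlgHom.id R M.H) M.Δ t) (x, (y, z))
      = alphMul M.carrier M.carrier t (x, y + z) := by
  induction t using TensorProduct.induction_on with
  | zero => simp
  | tmul a b =>
    rw [Algebra.TensorProduct.map_tmul, AlgHom.id_apply, mul₃_tmul, mul_Δ, alphMul_tmul]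
  | add s t hs ht => rw [map_add, map_add, map_add, Pi.add_apply, Pi.add_apply, hs, ht]

theorem mul₃_assoc_tmul (s : M.H ⊗[R] M.H) (b : M.H) (x y z : V) :
    M.mul₃ (Algebra.TensorProduct.assoc R R R M.H M.H M.H (s ⊗ₜ[R] b)) (x, (y, z))
      = alphMul M.carrier M.carrier s (x, y) * (b : V → K) z := by
  induction s using TensorProduct.induction_on with
  | zero => simp
  | tmul c d =>
    rw [Algebra.TensorProduct.assoc_tmul, mul₃_tmul, alphMul_tmul, alphMul_tmul]
    ring
  | add s t hs ht =>
    rw [TensorProduct.add_tmul, map_add, map_add, map_add, Pi.add_apply, Pi.add_apply, hs, ht]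
    ring

theorem mul₃_assoc_map_Δ_id (t : M.H ⊗[R] M.H) (x y z : V) :
    M.mul₃ (Algebra.TensorProduct.assoc R R R M.H M.H M.H
      (Algebra.TensorProduct.map M.Δ (AlgHom.id R M.H) t)) (x, (y, z))
      = alphMul M.carrier M.carrier t (x + y, z) := by
  induction t using TensorProduct.induction_on with
  | zero => simp
  | tmul a b =>
    rw [Algebra.TensorProduct.map_tmul, AlgHom.id_apply, mul₃_assoc_tmul, mul_Δ, alphMul_tmul]
  | add s t hs ht =>
    rw [map_add, map_add, map_add, map_add, Pi.add_apply, Pi.add_apply, hs, ht]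

theorem lid_map_ε_id (t : M.H ⊗[R] M.H) (x : V) :
    ((Algebra.TensorProduct.lid R M.H (Algebra.TensorProduct.map M.ε (AlgHom.id R M.H) t) : M.H)
      : V → K) x = alphMul M.carrier M.carrier t (0, x) := by
  induction t using TensorProduct.induction_on with
  | zero => simp
  | tmul a b =>
    rw [Algebra.TensorProduct.map_tmul, AlgHom.id_apply, Algebra.TensorProduct.lid_tmul,
      alphMul_tmul, ← algebraMap_ε]
    show (M.ε a • (b : V → K)) x = _
    rw [Pi.smul_apply, Algebra.smul_def]
  | add s t hs ht =>
    rw [map_add, map_add, map_add, Subalgebra.coe_add, Pi.add_apply, Pi.add_apply, hs, ht]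

theorem rid_map_id_ε (t : M.H ⊗[R] M.H) (x : V) :
    ((Algebra.TensorProduct.rid R R M.H (Algebra.TensorProduct.map (AlgHom.id R M.H) M.ε t) : M.H)
      : V → K) x = alphMul M.carrier M.carrier t (x, 0) := by
  induction t using TensorProduct.induction_on with
  | zero => simp
  | tmul a b =>
    rw [Algebra.TensorProduct.map_tmul, AlgHom.id_apply, Algebra.TensorProduct.rid_tmul,
      alphMul_tmul, ← algebraMap_ε]
    show (M.ε b • (a : V → K)) x = _
    rw [Pi.smul_apply, Algebra.smul_def, mul_comm]
  | add s t hs ht =>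
    rw [map_add, map_add, map_add, Subalgebra.coe_add, Pi.add_apply, Pi.add_apply, hs, ht]

theorem lift_S_id (t : M.H ⊗[R] M.H) (x : V) :
    ((Algebra.TensorProduct.lift M.S (AlgHom.id R M.H) (fun _ _ => Commute.all _ _) t : M.H)
      : V → K) x = alphMul M.carrier M.carrier t (-x, x) := by
  induction t using TensorProduct.induction_on with
  | zero => simp
  | tmul a b =>
    rw [Algebra.TensorProduct.lift_tmul, AlgHom.id_apply, alphMul_tmul, Subalgebra.coe_mul,
      Pi.mul_apply, S_apply]
  | add s t hs ht =>
    rw [map_add, map_add, Subalgebra.coe_add, Pi.add_apply, Pi.add_apply, hs, ht]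

theorem lift_id_S (t : M.H ⊗[R] M.H) (x : V) :
    ((Algebra.TensorProduct.lift (AlgHom.id R M.H) M.S (fun _ _ => Commute.all _ _) t : M.H)
      : V → K) x = alphMul M.carrier M.carrier t (x, -x) := by
  induction t using TensorProduct.induction_on with
  | zero => simp
  | tmul a b =>
    rw [Algebra.TensorProduct.lift_tmul, AlgHom.id_apply, alphMul_tmul, Subalgebra.coe_mul,
      Pi.mul_apply, S_apply]
  | add s t hs ht =>
    rw [map_add, map_add, Subalgebra.coe_add, Pi.add_apply, Pi.add_apply, hs, ht]

theorem mul_comm_swap (t : M.H ⊗[R] M.H) (x y : V) :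
    alphMul M.carrier M.carrier (TensorProduct.comm R M.H M.H t) (x, y)
      = alphMul M.carrier M.carrier t (y, x) := by
  induction t using TensorProduct.induction_on with
  | zero => simp
  | tmul a b =>
    rw [TensorProduct.comm_tmul, alphMul_tmul, alphMul_tmul, mul_comm]
  | add s t hs ht =>
    rw [map_add, map_add, map_add, Pi.add_apply, Pi.add_apply, hs, ht]

end AlphOrd

end Fermat.Agent.Alpha
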