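/-
ALPHA, package P1 (helper1), part 5: **the `HopfAlgebra` instance of a Hopf order**, cocommutativity,
finiteness, flatness.
-/
import Mathlib
import Fermat.Agent.Lib.Alpha.Hopf.Inst

set_option autoImplicit false
set_option linter.unusedSectionVars false
set_option linter.unusedVariables false
set_option linter.style.haveILetI false

open scoped TensorProduct

namespace Fermat.Agent.Alpha

namespace AlphOrd

variable {R K V : Type} [CommRing R] [Field K] [Algebra R K] [AddCommGroup V] (M : AlphOrd R K V)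

theorem coassoc_Δ :
    (Algebra.TensorProduct.assoc R R R M.H M.H M.H).toAlgHom.comp
      ((Algebra.TensorProduct.map M.Δ (AlgHom.id R M.H)).comp M.Δ)
      = (Algebra.TensorProduct.map (AlgHom.id R M.H) M.Δ).comp M.Δ := by
  refine AlgHom.ext fun f => M.mul₃_injective (funext fun p => ?_)
  obtain ⟨x, y, z⟩ := p
  show M.mul₃ (Algebra.TensorProduct.assoc R R R M.H M.H M.H
      (Algebra.TensorProduct.map M.Δ (AlgHom.id R M.H) (M.Δ f))) (x, (y, z))
    = M.mul₃ (Algebra.TensorProduct.map (AlgHom.id R M.H) M.Δ (M.Δ f)) (x, (y, z))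
  rw [mul₃_assoc_map_Δ_id, mul₃_map_id_Δ, mul_Δ, mul_Δ, add_assoc]

theorem rTensor_ε_Δ :
    (Algebra.TensorProduct.map M.ε (AlgHom.id R M.H)).comp M.Δ
      = (Algebra.TensorProduct.lid R M.H).symm := by
  refine AlgHom.ext fun f => (Algebra.TensorProduct.lid R M.H).injective ?_
  show Algebra.TensorProduct.lid R M.H (Algebra.TensorProduct.map M.ε (AlgHom.id R M.H) (M.Δ f))
    = Algebra.TensorProduct.lid R M.H ((Algebra.TensorProduct.lid R M.H).symm f)
  rw [AlgEquiv.apply_symm_apply]
  refine Subtype.ext (funext fun x => ?_)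
  rw [lid_map_ε_id, mul_Δ, zero_add]

theorem lTensor_ε_Δ :
    (Algebra.TensorProduct.map (AlgHom.id R M.H) M.ε).comp M.Δ
      = (Algebra.TensorProduct.rid R R M.H).symm := by
  refine AlgHom.ext fun f => (Algebra.TensorProduct.rid R R M.H).injective ?_
  show Algebra.TensorProduct.rid R R M.H
      (Algebra.TensorProduct.map (AlgHom.id R M.H) M.ε (M.Δ f))
    = Algebra.TensorProduct.rid R R M.H ((Algebra.TensorProduct.rid R R M.H).symm f)
  rw [AlgEquiv.apply_symm_apply]
  refine Subtype.ext (funext fun x => ?_)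
  rw [rid_map_id_ε, mul_Δ, add_zero]

/-- the bialgebra structure of a Hopf order -/
@[reducible] noncomputable def bialgebra : Bialgebra R M.H :=
  Bialgebra.ofAlgHom M.Δ M.ε M.coassoc_Δ M.rTensor_ε_Δ M.lTensor_ε_Δ

theorem comulAlgHom_eq : @Bialgebra.comulAlgHom R M.H _ _ M.bialgebra = M.Δ :=
  AlgHom.ext fun _ => rfl

theorem counitAlgHom_eq : @Bialgebra.counitAlgHom R M.H _ _ M.bialgebra = M.ε :=
  AlgHom.ext fun _ => rfl

theorem comul_eq (f : M.H) :
    letI := M.bialgebra
    (Coalgebra.comul (R := R) f : M.H ⊗[R] M.H) = M.Δ f := rfl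

theorem counit_eq (f : M.H) :
    letI := M.bialgebra
    (Coalgebra.counit (R := R) f : R) = M.ε f := rfl

/-- the Hopf algebra structure of a Hopf order -/
@[reducible] noncomputable def hopfAlgebra : HopfAlgebra R M.H :=
  letI := M.bialgebra
  HopfAlgebra.ofAlgHom M.S
    (by
      rw [comulAlgHom_eq, counitAlgHom_eq]
      refine AlgHom.ext fun f => Subtype.ext (funext fun x => ?_)
      show ((Algebra.TensorProduct.lift M.S (AlgHom.id R M.H) (fun _ _ => Commute.all _ _)
        (M.Δ f) : M.H) : V → K) x = ((Algebra.ofId R M.H (M.ε f) : M.H) : V → K) x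
      rw [lift_S_id, mul_Δ, neg_add_cancel, ← algebraMap_ε]
      rfl)
    (by
      rw [comulAlgHom_eq, counitAlgHom_eq]
      refine AlgHom.ext fun f => Subtype.ext (funext fun x => ?_)
      show ((Algebra.TensorProduct.lift (AlgHom.id R M.H) M.S (fun _ _ => Commute.all _ _)
        (M.Δ f) : M.H) : V → K) x = ((Algebra.ofId R M.H (M.ε f) : M.H) : V → K) x
      rw [lift_id_S, mul_Δ, add_neg_cancel, ← algebraMap_ε]
      rfl)

theorem isCocomm : @Coalgebra.IsCocomm R M.H _ _ _ M.bialgebra.toCoalgebra := by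
  letI := M.bialgebra
  refine ⟨LinearMap.ext fun f => M.mul_injective (funext fun p => ?_)⟩
  obtain ⟨x, y⟩ := p
  show alphMul M.carrier M.carrier (TensorProduct.comm R M.H M.H (M.Δ f)) (x, y)
    = alphMul M.carrier M.carrier (M.Δ f) (x, y)
  rw [mul_comm_swap, mul_Δ, mul_Δ, add_comm]

theorem finite : Module.Finite R M.H := by
  obtain ⟨n, B, -⟩ := alph_exists_basis M.inj M.good
  exact Module.Finite.of_basis B

theorem free : Module.Free R M.H := by
  obtain ⟨n, B, -⟩ := alph_exists_basis M.inj M.good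
  exact Module.Free.of_basis B

theorem flat : Module.Flat R M.H := by
  haveI := M.free
  infer_instance

end AlphOrd

end Fermat.Agent.Alpha
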