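/-
ALPHA, package P1 (helper1), part 6: **the points of a Hopf order**: every `R`-algebra homomorphism
`H → K` is the evaluation at a unique point of `V` (Dedekind independence of characters + a
dimension count), and convolution of points is addition in `V`.
-/
import Mathlib
import Fermat.Agent.Lib.Alpha.Hopf.Hopf

set_option autoImplicit false
set_option linter.unusedSectionVars false
set_option linter.unusedVariables false
set_option linter.style.haveILetI false

open scoped TensorProduct

namespace Fermat.Agent.Alpha

namespace AlphOrd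

variable {R K V : Type} [CommRing R] [Field K] [Algebra R K] [AddCommGroup V] (M : AlphOrd R K V)

/-- evaluation at a point -/
noncomputable def ev (v : V) : M.H →ₐ[R] K :=
  (Pi.evalAlgHom R (fun _ : V => K) v).comp M.carrier.val

@[simp] theorem ev_apply (v : V) (f : M.H) : M.ev v f = (f : V → K) v := rfl

variable (hsep : ∀ x y : V, x ≠ y → ∃ f ∈ M.carrier, f x ≠ f y)

include hsep in
theorem ev_injective : Function.Injective M.ev := by
  intro x y hxy
  by_contra hne
  obtain ⟨f, hf, hfxy⟩ := hsep x y hne
  exact hfxy (congrArg (fun χ : M.H →ₐ[R] K => χ ⟨f, hf⟩) hxy)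

include hsep in
/-- every character is an evaluation -/
theorem exists_eq_ev [Fintype V] (χ : M.H →ₐ[R] K) : ∃ v, χ = M.ev v := by
  classical
  by_contra hcon
  push Not at hcon
  obtain ⟨n, B, hB⟩ := alph_exists_basis M.inj M.good
  -- the family of `card V + 1` characters
  set c : Option V → (M.H →* K) := fun o => match o with
    | none => (χ : M.H →* K)
    | some v => (M.ev v : M.H →* K) with hc
  have hcinj : Function.Injective c := by
    intro o o' hoo'
    have key : ∀ f : M.H, c o f = c o' f := fun f => by rw [hoo']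
    rcases o with _ | v <;> rcases o' with _ | v'
    · rfl
    · exact absurd (AlgHom.ext fun f => key f) (hcon v')
    · exact absurd (AlgHom.ext fun f => (key f).symm) (hcon v)
    · have : M.ev v = M.ev v' := AlgHom.ext fun f => key f
      rw [M.ev_injective hsep this]
  have hli : LinearIndependent K (fun o => ((c o : M.H →* K) : M.H → K)) :=
    (linearIndependent_monoidHom M.H K).comp c hcinj
  -- `R`-linearity of the characters
  have hlin : ∀ (o : Option V) (r : R) (f : M.H), c o (r • f) = algebraMap R K r * c o f := by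
    intro o r f
    rcases o with _ | v
    · show χ (r • f) = algebraMap R K r * χ f
      rw [map_smul, Algebra.smul_def]
    · show M.ev v (r • f) = algebraMap R K r * M.ev v f
      rw [map_smul, Algebra.smul_def]
  have hadd : ∀ (o : Option V) (f g : M.H), c o (f + g) = c o f + c o g := by
    intro o f g
    rcases o with _ | v
    · exact map_add χ f g
    · exact map_add (M.ev v) f g
  have hzero : ∀ o : Option V, c o 0 = 0 := by
    intro o
    rcases o with _ | v
    · exact map_zero χ
    · exact map_zero (M.ev v)
  -- restriction to the basis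
  have hli' : LinearIndependent K (fun o => fun i : Fin n => c o (B i)) := by
    rw [Fintype.linearIndependent_iff] at hli ⊢
    intro g hg
    apply hli
    funext f
    rw [Finset.sum_apply, Pi.zero_apply]
    have hsum : ∀ (s : Finset (Fin n)) (o : Option V),
        c o (∑ i ∈ s, B.repr f i • B i) = ∑ i ∈ s, algebraMap R K (B.repr f i) * c o (B i) := by
      intro s o
      induction s using Finset.induction_on with
      | empty => simp [hzero]
      | insert a s ha ih => rw [Finset.sum_insert ha, Finset.sum_insert ha, hadd, hlin, ih]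
    have hf : f = ∑ i, B.repr f i • B i := (B.sum_repr f).symm
    have h1 : ∀ o : Option V, c o f = ∑ i, algebraMap R K (B.repr f i) * c o (B i) := by
      intro o
      conv_lhs => rw [hf]
      exact hsum _ o
    have h2 : ∀ i : Fin n, ∑ o, g o * c o (B i) = 0 := by
      intro i
      have := congrFun hg i
      simpa [Finset.sum_apply, Pi.smul_apply, smul_eq_mul] using this
    calc ∑ o, (g o • ((c o : M.H →* K) : M.H → K)) f
        = ∑ o, g o * ∑ i, algebraMap R K (B.repr f i) * c o (B i) := by
          refine Finset.sum_congr rfl fun o _ => ?_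
          rw [Pi.smul_apply, smul_eq_mul]
          congr 1
          exact h1 o
      _ = ∑ i, algebraMap R K (B.repr f i) * ∑ o, g o * c o (B i) := by
          simp only [Finset.mul_sum]
          rw [Finset.sum_comm]
          refine Finset.sum_congr rfl fun i _ => Finset.sum_congr rfl fun o _ => ?_
          ring
      _ = 0 := by
          refine Finset.sum_eq_zero fun i _ => ?_
          rw [h2 i, mul_zero]
  have h3 : Fintype.card (Option V) ≤ n := by
    have := hli'.fintype_card_le_finrank
    rwa [Module.finrank_fintype_fun_eq_card, Fintype.card_fin] at this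
  have h4 : n ≤ Fintype.card V := by
    have := hB.fintype_card_le_finrank
    rwa [Module.finrank_fintype_fun_eq_card, Fintype.card_fin] at this
  rw [Fintype.card_option] at h3
  omega

/-- `lift (ev x) (ev y)` is the evaluation at `(x, y)` -/
theorem lift_ev_ev (x y : V) (t : M.H ⊗[R] M.H) :
    Algebra.TensorProduct.lift (M.ev x) (M.ev y) (fun _ _ => Commute.all _ _) t
      = alphMul M.carrier M.carrier t (x, y) := by
  induction t using TensorProduct.induction_on with
  | zero => simp
  | tmul a b => rw [Algebra.TensorProduct.lift_tmul, alphMul_tmul, ev_apply, ev_apply]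
  | add s t hs ht => rw [map_add, map_add, Pi.add_apply, hs, ht]

/-- convolution of evaluations is the evaluation at the sum -/
theorem ev_conv_ev (x y : V) :
    letI := M.bialgebra
    (WithConv.toConv (M.ev x) * WithConv.toConv (M.ev y) : WithConv (M.H →ₐ[R] K))
      = WithConv.toConv (M.ev (x + y)) := by
  letI := M.bialgebra
  apply WithConv.ext
  refine AlgHom.ext fun f => ?_
  have h1 := AlgHom.convMul_apply (R := R) (WithConv.toConv (M.ev x)) (WithConv.toConv (M.ev y)) f
  rw [WithConv.ofConv_toConv, WithConv.ofConv_toConv] at h1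
  show (WithConv.toConv (M.ev x) * WithConv.toConv (M.ev y) : WithConv (M.H →ₐ[R] K)) f = _
  rw [h1, M.comul_eq, lift_ev_ev, mul_Δ]
  rfl

include hsep in
theorem toConv_ev_bijective [Fintype V] :
    Function.Bijective (fun v : V => (WithConv.toConv (M.ev v) : WithConv (M.H →ₐ[R] K))) := by
  refine ⟨fun x y hxy => M.ev_injective hsep (WithConv.toConv_injective hxy), fun f => ?_⟩
  obtain ⟨v, hv⟩ := M.exists_eq_ev hsep f.ofConv
  exact ⟨v, WithConv.ext hv.symm⟩

/-- the points of a Hopf order -/
noncomputable def pointsEquiv [Fintype V] : WithConv (M.H →ₐ[R] K) ≃ V :=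
  (Equiv.ofBijective _ (M.toConv_ev_bijective hsep)).symm

theorem toConv_ev_pointsEquiv [Fintype V] (f : WithConv (M.H →ₐ[R] K)) :
    WithConv.toConv (M.ev (M.pointsEquiv hsep f)) = f :=
  (Equiv.ofBijective _ (M.toConv_ev_bijective hsep)).apply_symm_apply f

theorem pointsEquiv_toConv_ev [Fintype V] (v : V) :
    M.pointsEquiv hsep (WithConv.toConv (M.ev v)) = v :=
  (Equiv.ofBijective _ (M.toConv_ev_bijective hsep)).symm_apply_apply v

theorem apply_eq_pointsEquiv [Fintype V] (f : WithConv (M.H →ₐ[R] K)) (h : M.H) :
    f h = (h : V → K) (M.pointsEquiv hsep f) := by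
  conv_lhs => rw [← M.toConv_ev_pointsEquiv hsep f]
  rfl

theorem pointsEquiv_mul [Fintype V] (f g : WithConv (M.H →ₐ[R] K)) :
    letI := M.bialgebra
    M.pointsEquiv hsep (f * g) = M.pointsEquiv hsep f + M.pointsEquiv hsep g := by
  letI := M.bialgebra
  conv_lhs => rw [← M.toConv_ev_pointsEquiv hsep f, ← M.toConv_ev_pointsEquiv hsep g,
    M.ev_conv_ev, M.pointsEquiv_toConv_ev hsep]

include hsep in
/-- points and semilinear symmetries: if `τ : K → K` and `ρ : V → V` satisfy `f (ρ x) = τ (f x)` for
all `f ∈ H`, then `g = τ ∘ f` implies `e g = ρ (e f)` -/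
theorem pointsEquiv_equivariant [Fintype V] (τ : K → K) (ρ : V → V)
    (hequiv : ∀ f ∈ M.carrier, ∀ x : V, f (ρ x) = τ (f x))
    (f g : WithConv (M.H →ₐ[R] K)) (hfg : ∀ h : M.H, g h = τ (f h)) :
    M.pointsEquiv hsep g = ρ (M.pointsEquiv hsep f) := by
  by_contra hne
  obtain ⟨h, hh, hne'⟩ := hsep _ _ hne
  apply hne'
  have h1 := M.apply_eq_pointsEquiv hsep g ⟨h, hh⟩
  have h2 := M.apply_eq_pointsEquiv hsep f ⟨h, hh⟩
  rw [hfg, h2] at h1
  exact h1.symm.trans (hequiv h hh _).symm

include hsep in
/-- **the Hopf algebra of a Hopf order and its points** (in the shape of the Prelude's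
`IsFlatAt` / S19: the `R`-algebra structure is part of the `HopfAlgebra` datum) -/
theorem _root_.Fermat.Agent.Alpha.alph_hopf [Fintype V] {G : Type} (τ : G → K → K) (ρ : G → V → V)
    (hequiv : ∀ f ∈ M.carrier, ∀ (σ : G) (x : V), f (ρ σ x) = τ σ (f x)) :
    ∃ (H' : Type) (_ : CommRing H') (_ : HopfAlgebra R H'), Module.Finite R H' ∧
      Module.Flat R H' ∧ Coalgebra.IsCocomm R H' ∧
      ∃ e : WithConv (H' →ₐ[R] K) ≃ V, (∀ f g, e (f * g) = e f + e g) ∧
        ∀ (σ : G) (f g : WithConv (H' →ₐ[R] K)), (∀ h : H', g h = τ σ (f h)) → e g = ρ σ (e f) :=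
  ⟨M.H, inferInstance, M.hopfAlgebra, M.finite, M.flat, M.isCocomm, M.pointsEquiv hsep,
    fun f g => M.pointsEquiv_mul hsep f g,
    fun σ f g hfg => M.pointsEquiv_equivariant hsep (τ σ) (ρ σ)
      (fun f hf x => hequiv f hf σ x) f g hfg⟩

end AlphOrd

end Fermat.Agent.Alpha
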