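/-
ALPHA, package P1 (helper1), part 7: **building a Hopf order from user-friendly hypotheses**
(shape of P10-G7's `FFModel`): `R` a PID, `H ≤ K^V` an `R`-subalgebra, finitely generated as a
module, `R`-independent families of `H` are `K`-independent, `f 0 ∈ R`, and
`f (x + y) = ∑ gᵢ x * hᵢ y` with `gᵢ, hᵢ ∈ H`.  Stability under `f ↦ f ∘ neg` is derived.
-/
import Mathlib
import Fermat.Agent.Lib.Alpha.Hopf.Points

set_option autoImplicit false
set_option linter.unusedSectionVars false
set_option linter.unusedVariables false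
set_option linter.style.haveILetI false

open scoped TensorProduct

namespace Fermat.Agent.Alpha

section Build

variable {R K V : Type} [CommRing R] [Field K] [Algebra R K]

/-- `K^X` is a torsion-free `R`-module -/
theorem alph_isTorsionFree [IsDomain R] (hinj : Function.Injective (algebraMap R K)) (X : Type) :
    Module.IsTorsionFree R (X → K) := by
  refine Module.IsTorsionFree.of_smul_eq_zero fun r f h => ?_
  by_cases hr : r = 0
  · exact Or.inl hr
  · right
    funext x
    have h1 := congrFun h x
    rw [Pi.smul_apply, Algebra.smul_def, Pi.zero_apply] at h1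
    rcases mul_eq_zero.mp h1 with h2 | h2
    · exact absurd (hinj (by rw [h2, map_zero])) hr
    · exact h2

/-- finitely generated + independence ⇒ good -/
theorem alphGood_of_fg [IsDomain R] [IsPrincipalIdealRing R]
    (hinj : Function.Injective (algebraMap R K)) {X : Type} (N : Submodule R (X → K)) (hfg : N.FG)
    (hindep : ∀ (n : ℕ) (h : Fin n → (X → K)), (∀ i, h i ∈ N) → LinearIndependent R h →
      LinearIndependent K h) : AlphGood N := by
  haveI : Module.Finite R ↥N := Module.Finite.iff_fg.mpr hfg
  haveI : Module.IsTorsionFree R (X → K) := alph_isTorsionFree hinj X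
  haveI : Module.IsTorsionFree R ↥N :=
    Function.Injective.moduleIsTorsionFree N.subtype N.injective_subtype (fun _ _ => rfl)
  haveI : Module.Free R ↥N := Module.free_of_finite_type_torsion_free'
  set B := Module.finBasis R ↥N with hB
  refine ⟨Module.finrank R ↥N, fun i => ((B i : ↥N) : X → K), ?_, ?_⟩
  · refine hindep _ _ (fun i => (B i).2) ?_
    exact B.linearIndependent.map' N.subtype (Submodule.ker_subtype N)
  · have h1 : Submodule.map N.subtype (Submodule.span R (Set.range B)) = N := by
      rw [B.span_eq, Submodule.map_subtype_top]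
    rw [Submodule.map_span, ← Set.range_comp] at h1
    exact h1.symm

variable [AddCommGroup V]

/-- the sum form of the comultiplication condition implies the range form -/
theorem alph_comul_mem_range (H : Subalgebra R (V → K)) {f : V → K} {n : ℕ} {g h : Fin n → (V → K)}
    (hg : ∀ i, g i ∈ H) (hh : ∀ i, h i ∈ H) (hgh : ∀ x y, f (x + y) = ∑ i, g i x * h i y) :
    (fun p : V × V => f (p.1 + p.2)) ∈ (alphMul H H).range := by
  refine ⟨∑ i, (⟨g i, hg i⟩ : ↥H) ⊗ₜ[R] (⟨h i, hh i⟩ : ↥H), ?_⟩
  funext p
  rw [AlgHom.toRingHom_eq_coe, RingHom.coe_coe, map_sum, Finset.sum_apply, hgh]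
  exact Finset.sum_congr rfl fun i _ => alphMul_tmul H H _ _ p

/-- stability under `x ↦ m • x` -/
theorem alph_comp_nsmul_mem (H : Subalgebra R (V → K))
    (hcounit : ∀ f ∈ H, f 0 ∈ (algebraMap R K).range)
    (hcomul : ∀ f ∈ H, ∃ (n : ℕ) (g h : Fin n → (V → K)), (∀ i, g i ∈ H) ∧ (∀ i, h i ∈ H) ∧
      ∀ x y, f (x + y) = ∑ i, g i x * h i y) (m : ℕ) :
    ∀ f ∈ H, (fun x : V => f (m • x)) ∈ H := by
  induction m with
  | zero =>
    intro f hf
    obtain ⟨r, hr⟩ := hcounit f hf
    have : (fun x : V => f (0 • x)) = algebraMap R (V → K) r := by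
      funext x
      rw [zero_smul, ← hr]
      rfl
    rw [this]
    exact H.algebraMap_mem r
  | succ m ih =>
    intro f hf
    obtain ⟨n, g, h, hg, hh, hgh⟩ := hcomul f hf
    have : (fun x : V => f ((m + 1) • x)) = ∑ i, (fun x : V => g i (m • x)) * h i := by
      funext x
      rw [succ_nsmul, hgh, Finset.sum_apply]
      rfl
    rw [this]
    exact H.sum_mem fun i _ => H.mul_mem (ih (g i) (hg i)) (hh i)

/-- stability under `x ↦ -x` -/
theorem alph_comp_neg_mem [Fintype V] (H : Subalgebra R (V → K))
    (hcounit : ∀ f ∈ H, f 0 ∈ (algebraMap R K).range)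
    (hcomul : ∀ f ∈ H, ∃ (n : ℕ) (g h : Fin n → (V → K)), (∀ i, g i ∈ H) ∧ (∀ i, h i ∈ H) ∧
      ∀ x y, f (x + y) = ∑ i, g i x * h i y) :
    ∀ f ∈ H, (fun x : V => f (-x)) ∈ H := by
  intro f hf
  have hpos : 0 < Fintype.card V := Fintype.card_pos
  have hneg : ∀ x : V, -x = (Fintype.card V - 1) • x := by
    intro x
    have h1 : Fintype.card V • x = 0 := card_nsmul_eq_zero
    have h2 : (Fintype.card V - 1) • x + x = 0 := by
      rw [← succ_nsmul, Nat.sub_add_cancel hpos, h1]
    exact neg_eq_of_add_eq_zero_left h2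
  have : (fun x : V => f (-x)) = fun x : V => f ((Fintype.card V - 1) • x) := by
    funext x
    rw [hneg]
  rw [this]
  exact alph_comp_nsmul_mem H hcounit hcomul _ f hf

/-- **a Hopf order from user-friendly hypotheses** -/
noncomputable def alphOrdOfFg [IsDomain R] [IsPrincipalIdealRing R] [Fintype V]
    (hinj : Function.Injective (algebraMap R K)) (H : Subalgebra R (V → K))
    (hfg : H.toSubmodule.FG)
    (hindep : ∀ (n : ℕ) (h : Fin n → (V → K)), (∀ i, h i ∈ H) → LinearIndependent R h →
      LinearIndependent K h)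
    (hcounit : ∀ f ∈ H, f 0 ∈ (algebraMap R K).range)
    (hcomul : ∀ f ∈ H, ∃ (n : ℕ) (g h : Fin n → (V → K)), (∀ i, g i ∈ H) ∧ (∀ i, h i ∈ H) ∧
      ∀ x y, f (x + y) = ∑ i, g i x * h i y) : AlphOrd R K V where
  carrier := H
  inj := hinj
  good := alphGood_of_fg hinj H.toSubmodule hfg hindep
  comul f hf := by
    obtain ⟨n, g, h, hg, hh, hgh⟩ := hcomul f hf
    exact alph_comul_mem_range H hg hh hgh
  counit := hcounit
  anti := alph_comp_neg_mem H hcounit hcomul

end Build

end Fermat.Agent.Alpha
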