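/-
ALPHA, package P1-C (helper1), part 1: **calculus of decomposable two-variable functions**.
`AlphDec M N F` : `F x y = ∑ gᵢ x * hᵢ y` with `gᵢ ∈ M`, `hᵢ ∈ N`.  Closure properties,
re-expansion in a `K`-independent family (`alphDec_basis`), uniqueness of coefficients, and the key
lemma `alphDec_fix`: a translation-invariant element of a Hopf order has its comultiplication in
the invariants.
-/
import Mathlib
import Fermat.Agent.Lib.Alpha.Hopf.Build

set_option autoImplicit false
set_option linter.unusedSectionVars false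
set_option linter.unusedVariables false
set_option linter.style.haveILetI false

open scoped TensorProduct

namespace Fermat.Agent.Alpha

section Dec

variable {R K : Type} [CommRing R] [Field K] [Algebra R K] {X Y X' Y' : Type}

/-- `F x y = ∑ gᵢ x * hᵢ y` with `gᵢ ∈ M`, `hᵢ ∈ N` -/
def AlphDec (M : Submodule R (X → K)) (N : Submodule R (Y → K)) (F : X → Y → K) : Prop :=
  ∃ (n : ℕ) (g : Fin n → (X → K)) (h : Fin n → (Y → K)), (∀ i, g i ∈ M) ∧ (∀ i, h i ∈ N) ∧
    ∀ x y, F x y = ∑ i, g i x * h i y

variable {M : Submodule R (X → K)} {N : Submodule R (Y → K)} {F F' : X → Y → K}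

theorem alphDec_of_fintype {ι : Type} [Fintype ι] (g : ι → (X → K)) (h : ι → (Y → K))
    (hg : ∀ i, g i ∈ M) (hh : ∀ i, h i ∈ N) (hF : ∀ x y, F x y = ∑ i, g i x * h i y) :
    AlphDec M N F := by
  classical
  set e := Fintype.equivFin ι with he
  refine ⟨Fintype.card ι, fun k => g (e.symm k), fun k => h (e.symm k), fun k => hg _,
    fun k => hh _, fun x y => ?_⟩
  rw [hF]
  exact Fintype.sum_equiv e _ _ (fun i => by simp)

theorem AlphDec.congr (h : AlphDec M N F) (hFF' : ∀ x y, F' x y = F x y) : AlphDec M N F' := by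
  obtain ⟨n, g, k, hg, hk, hF⟩ := h
  exact ⟨n, g, k, hg, hk, fun x y => by rw [hFF', hF]⟩

theorem AlphDec.mono {M' : Submodule R (X → K)} {N' : Submodule R (Y → K)} (h : AlphDec M N F)
    (hM : M ≤ M') (hN : N ≤ N') : AlphDec M' N' F := by
  obtain ⟨n, g, k, hg, hk, hF⟩ := h
  exact ⟨n, g, k, fun i => hM (hg i), fun i => hN (hk i), hF⟩

theorem alphDec_zero : AlphDec M N (fun _ _ => (0 : K)) :=
  ⟨0, fun _ => 0, fun _ => 0, fun i => i.elim0, fun i => i.elim0, fun x y => by simp⟩

theorem AlphDec.add (h : AlphDec M N F) (h' : AlphDec M N F') :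
    AlphDec M N (fun x y => F x y + F' x y) := by
  obtain ⟨n, g, k, hg, hk, hF⟩ := h
  obtain ⟨n', g', k', hg', hk', hF'⟩ := h'
  refine alphDec_of_fintype (ι := Fin n ⊕ Fin n') (Sum.elim g g') (Sum.elim k k') ?_ ?_ ?_
  · rintro (i | i)
    · exact hg i
    · exact hg' i
  · rintro (i | i)
    · exact hk i
    · exact hk' i
  · intro x y
    show F x y + F' x y = _
    rw [Fintype.sum_sum_type, hF, hF']
    rfl

theorem AlphDec.smul (h : AlphDec M N F) (r : R) :
    AlphDec M N (fun x y => algebraMap R K r * F x y) := by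
  obtain ⟨n, g, k, hg, hk, hF⟩ := h
  refine ⟨n, fun i => r • g i, k, fun i => M.smul_mem r (hg i), hk, fun x y => ?_⟩
  show algebraMap R K r * F x y = ∑ i, (r • g i) x * k i y
  rw [hF, Finset.mul_sum]
  refine Finset.sum_congr rfl fun i _ => ?_
  rw [Pi.smul_apply, Algebra.smul_def, mul_assoc]

theorem alphDec_sum {ι : Type} (s : Finset ι) (G : ι → X → Y → K)
    (h : ∀ i ∈ s, AlphDec M N (G i)) : AlphDec M N (fun x y => ∑ i ∈ s, G i x y) := by
  classical
  induction s using Finset.induction_on with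
  | empty => simpa using alphDec_zero
  | insert a s ha ih =>
    have h1 := (h a (Finset.mem_insert_self a s)).add
      (ih fun i hi => h i (Finset.mem_insert_of_mem hi))
    refine h1.congr fun x y => ?_
    rw [Finset.sum_insert ha]

theorem AlphDec.swap (h : AlphDec M N F) : AlphDec N M (fun y x => F x y) := by
  obtain ⟨n, g, k, hg, hk, hF⟩ := h
  refine ⟨n, k, g, hk, hg, fun y x => ?_⟩
  show F x y = _
  rw [hF]
  exact Finset.sum_congr rfl fun i _ => mul_comm _ _

theorem AlphDec.comp (h : AlphDec M N F) (φ : X' → X) (ψ : Y' → Y) :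
    AlphDec (M.map (alphPre R φ).toLinearMap) (N.map (alphPre R ψ).toLinearMap)
      (fun x y => F (φ x) (ψ y)) := by
  obtain ⟨n, g, k, hg, hk, hF⟩ := h
  exact ⟨n, fun i => g i ∘ φ, fun i => k i ∘ ψ, fun i => ⟨g i, hg i, rfl⟩, fun i => ⟨k i, hk i, rfl⟩,
    fun x y => hF _ _⟩

/-- products, for subalgebras -/
theorem AlphDec.mul {H₁ : Subalgebra R (X → K)} {H₂ : Subalgebra R (Y → K)}
    (h : AlphDec H₁.toSubmodule H₂.toSubmodule F) (h' : AlphDec H₁.toSubmodule H₂.toSubmodule F') :
    AlphDec H₁.toSubmodule H₂.toSubmodule (fun x y => F x y * F' x y) := by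
  obtain ⟨n, g, k, hg, hk, hF⟩ := h
  obtain ⟨n', g', k', hg', hk', hF'⟩ := h'
  refine alphDec_of_fintype (ι := Fin n × Fin n') (fun ij => g ij.1 * g' ij.2)
    (fun ij => k ij.1 * k' ij.2) (fun ij => H₁.mul_mem (hg _) (hg' _))
    (fun ij => H₂.mul_mem (hk _) (hk' _)) ?_
  intro x y
  rw [hF, hF', Finset.sum_mul_sum, Fintype.sum_prod_type]
  refine Finset.sum_congr rfl fun i _ => Finset.sum_congr rfl fun j _ => ?_
  simp only [Pi.mul_apply]
  ring

/-- constants, for subalgebras -/
theorem alphDec_const (H₁ : Subalgebra R (X → K)) (H₂ : Subalgebra R (Y → K)) (r : R) :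
    AlphDec H₁.toSubmodule H₂.toSubmodule (fun _ _ => algebraMap R K r) := by
  refine ⟨1, fun _ => algebraMap R (X → K) r, fun _ => 1, fun _ => H₁.algebraMap_mem r,
    fun _ => H₂.one_mem, fun x y => ?_⟩
  simp

/-- uniqueness of the coefficients with respect to a `K`-independent family -/
theorem alph_coeff_eq {s : ℕ} {u : Fin s → (X → K)} (hu : LinearIndependent K u) (a b : Fin s → K)
    (hab : ∀ x, ∑ c, u c x * a c = ∑ c, u c x * b c) : a = b := by
  rw [Fintype.linearIndependent_iff] at hu
  funext c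
  have h1 : ∑ c, (a c - b c) • u c = 0 := by
    funext x
    rw [Finset.sum_apply, Pi.zero_apply]
    have h2 : ∑ c, ((a c - b c) • u c) x = ∑ c, u c x * a c - ∑ c, u c x * b c := by
      rw [← Finset.sum_sub_distrib]
      refine Finset.sum_congr rfl fun c _ => ?_
      rw [Pi.smul_apply, smul_eq_mul]
      ring
    rw [h2, hab x, sub_self]
  exact sub_eq_zero.mp (hu _ h1 c)

/-- re-expansion in a `K`-independent family spanning `M` -/
theorem alphDec_basis {s : ℕ} {u : Fin s → (X → K)}
    (hM : M ≤ Submodule.span R (Set.range u)) (h : AlphDec M N F) :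
    ∃ L : Fin s → (Y → K), (∀ c, L c ∈ N) ∧ ∀ x y, F x y = ∑ c, u c x * L c y := by
  obtain ⟨n, g, k, hg, hk, hF⟩ := h
  have h1 : ∀ i, ∃ r : Fin s → R, ∑ c, r c • u c = g i := fun i =>
    (Submodule.mem_span_range_iff_exists_fun R).mp (hM (hg i))
  choose r hr using h1
  refine ⟨fun c => ∑ i, r i c • k i, fun c => N.sum_mem fun i _ => N.smul_mem _ (hk i),
    fun x y => ?_⟩
  rw [hF]
  have h2 : ∀ i, g i x = ∑ c, algebraMap R K (r i c) * u c x := by
    intro i
    rw [← hr i, Finset.sum_apply]
    refine Finset.sum_congr rfl fun c _ => ?_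
    rw [Pi.smul_apply, Algebra.smul_def]
  have h3 : ∀ c, (∑ i, r i c • k i) y = ∑ i, algebraMap R K (r i c) * k i y := by
    intro c
    rw [Finset.sum_apply]
    refine Finset.sum_congr rfl fun i _ => ?_
    rw [Pi.smul_apply, Algebra.smul_def]
  simp_rw [h2, h3, Finset.sum_mul, Finset.mul_sum]
  rw [Finset.sum_comm]
  refine Finset.sum_congr rfl fun c _ => Finset.sum_congr rfl fun i _ => ?_
  ring

end Dec

section Fix

variable {R K V : Type} [CommRing R] [Field K] [Algebra R K] [AddCommGroup V]

/-- the elements of `H` invariant under translation by the elements of `T` -/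
def alphFix (H : Subalgebra R (V → K)) (T : Set V) : Subalgebra R (V → K) where
  carrier := {f | f ∈ H ∧ ∀ k ∈ T, ∀ x, f (x + k) = f x}
  mul_mem' := fun {f g} hf hg => ⟨H.mul_mem hf.1 hg.1, fun k hk x => by
    rw [Pi.mul_apply, Pi.mul_apply, hf.2 k hk, hg.2 k hk]⟩
  add_mem' := fun {f g} hf hg => ⟨H.add_mem hf.1 hg.1, fun k hk x => by
    rw [Pi.add_apply, Pi.add_apply, hf.2 k hk, hg.2 k hk]⟩
  algebraMap_mem' := fun r => ⟨H.algebraMap_mem r, fun k hk x => rfl⟩

theorem mem_alphFix {H : Subalgebra R (V → K)} {T : Set V} {f : V → K} :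
    f ∈ alphFix H T ↔ f ∈ H ∧ ∀ k ∈ T, ∀ x, f (x + k) = f x := Iff.rfl

theorem alphFix_le (H : Subalgebra R (V → K)) (T : Set V) : alphFix H T ≤ H := fun f hf => hf.1

/-- **comultiplication of invariants**: if `H` and `alphFix H T` are good and `f ∈ alphFix H T` has
its comultiplication in `H ⊗ H`, then it has it in `alphFix H T ⊗ alphFix H T`. -/
theorem alphDec_fix (H : Subalgebra R (V → K)) (T : Set V) (hH : AlphGood H.toSubmodule)
    (hT : AlphGood (alphFix H T).toSubmodule) {f : V → K} (hf : f ∈ alphFix H T)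
    (hdec : AlphDec H.toSubmodule H.toSubmodule (fun x y => f (x + y))) :
    AlphDec (alphFix H T).toSubmodule (alphFix H T).toSubmodule (fun x y => f (x + y)) := by
  obtain ⟨n, e, he, hHe⟩ := hH
  obtain ⟨s, u, hu, hTu⟩ := hT
  -- step 1 : expand in the second variable with respect to `e`
  obtain ⟨G, hG, hFG⟩ := alphDec_basis (u := e) (le_of_eq hHe) hdec.swap
  have hGfix : ∀ b, G b ∈ alphFix H T := by
    intro b
    refine ⟨hG b, fun k hk x => ?_⟩
    have h1 : (fun b => G b (x + k)) = fun b => G b x := by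
      apply alph_coeff_eq he
      intro y
      rw [← hFG y (x + k), ← hFG y x]
      have : x + k + y = x + y + k := by abel
      rw [this]
      exact hf.2 k hk _
    exact congrFun h1 b
  -- step 2 : expand in the first variable with respect to `u`
  have hdec2 : AlphDec (alphFix H T).toSubmodule H.toSubmodule (fun x y => f (x + y)) := by
    refine ⟨n, G, e, hGfix, fun b => ?_, fun x y => ?_⟩
    · have : e b ∈ H.toSubmodule := by
        rw [hHe]
        exact Submodule.subset_span ⟨b, rfl⟩
      exact this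
    · show f (x + y) = _
      rw [hFG y x]
      exact Finset.sum_congr rfl fun b _ => mul_comm _ _
  obtain ⟨L, hL, hFL⟩ := alphDec_basis (u := u) (le_of_eq hTu) hdec2
  have hLfix : ∀ c, L c ∈ alphFix H T := by
    intro c
    refine ⟨hL c, fun k hk y => ?_⟩
    have h1 : (fun c => L c (y + k)) = fun c => L c y := by
      apply alph_coeff_eq hu
      intro x
      rw [← hFL x (y + k), ← hFL x y]
      have : x + (y + k) = x + y + k := by abel
      rw [this]
      exact hf.2 k hk _
    exact congrFun h1 c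
  refine ⟨s, u, L, fun c => ?_, hLfix, hFL⟩
  have : u c ∈ (alphFix H T).toSubmodule := by
    rw [hTu]
    exact Submodule.subset_span ⟨c, rfl⟩
  exact this

end Fix

section Adjoin

variable {R K V : Type} [CommRing R] [Field K] [Algebra R K] [AddCommGroup V]

/-- the comultiplication condition may be checked on algebra generators -/
theorem alphDec_adjoin (S : Set (V → K)) (H : Subalgebra R (V → K)) (hSH : Algebra.adjoin R S ≤ H)
    (hS : ∀ f ∈ S, AlphDec H.toSubmodule H.toSubmodule (fun x y => f (x + y))) :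
    ∀ f ∈ Algebra.adjoin R S, AlphDec H.toSubmodule H.toSubmodule (fun x y => f (x + y)) := by
  intro f hf
  induction hf using Algebra.adjoin_induction with
  | mem f hf => exact hS f hf
  | algebraMap r => exact alphDec_const H H r
  | add f g _ _ ihf ihg => exact ihf.add ihg
  | mul f g _ _ ihf ihg => exact ihf.mul ihg

end Adjoin

end Fermat.Agent.Alpha
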