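/-
ALPHA, package P1 (helper1), part 8: **the Galois wrapper**.  For `K = ℚ̄` with `G_ℚ` acting on a
finite abelian group `V`, an `R`-order `H ≤ Map_{G_ℚ}(V, ℚ̄)` (`R ⊂ ℚ` a PID with fraction field `ℚ`)
which is finitely generated, separates points and is stable under the comultiplication is a Hopf
order, and its Hopf algebra has the shape demanded by the Prelude's `IsFlatAt` / by S19.

* `alph_artin` : `ℚ`-linearly independent `G_ℚ`-equivariant functions are `ℚ̄`-linearly independent.
* `alph_flat_of_order` : the final statement.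
-/
import Mathlib
import Fermat.Agent.Lib.Alpha.Hopf.Build

set_option autoImplicit false
set_option linter.unusedSectionVars false
set_option linter.unusedVariables false
set_option linter.style.haveILetI false

open scoped TensorProduct

namespace Fermat.Agent.Alpha

local notation "Qb" => AlgebraicClosure ℚ
local notation "GQ" => (AlgebraicClosure ℚ ≃ₐ[ℚ] AlgebraicClosure ℚ)

theorem alph_isGalois_qbar : IsGalois ℚ Qb := by
  have h : (DivisionRing.toRatAlgebra : Algebra ℚ Qb) = AlgebraicClosure.instAlgebra ℚ :=
    Subsingleton.elim _ _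
  rw [h]
  letI : Algebra ℚ Qb := AlgebraicClosure.instAlgebra ℚ
  haveI : Normal ℚ Qb := IsAlgClosure.normal ℚ Qb
  exact ⟨⟩

/-- the fixed field of `G_ℚ` is `ℚ` -/
theorem alph_mem_range_of_fixed (x : Qb) (hx : ∀ σ : GQ, σ x = x) :
    ∃ q : ℚ, algebraMap ℚ Qb q = x := by
  haveI := alph_isGalois_qbar
  exact (InfiniteGalois.mem_range_algebraMap_iff_fixed x).mpr hx

section Artin

variable {V : Type} [MulAction GQ V]

/-- **Artin/Dedekind descent**: `ℚ`-independent equivariant functions are `ℚ̄`-independent -/
theorem alph_artin {ι : Type} [Fintype ι] (f : ι → V → Qb)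
    (hequiv : ∀ (i : ι) (σ : GQ) (x : V), f i (σ • x) = σ (f i x))
    (hQ : LinearIndependent ℚ f) : LinearIndependent Qb f := by
  classical
  rw [Fintype.linearIndependent_iff]
  -- strong induction on the support
  have key : ∀ (s : Finset ι) (c : ι → Qb), (∀ i, i ∉ s → c i = 0) → ∑ i, c i • f i = 0 →
      ∀ i, c i = 0 := by
    intro s
    induction s using Finset.strongInduction with
    | H s ih =>
      intro c hsupp hrel
      by_contra hcon
      push Not at hcon
      obtain ⟨i₀, hi₀⟩ := hcon
      have hi₀s : i₀ ∈ s := by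
        by_contra h
        exact hi₀ (hsupp i₀ h)
      -- normalise
      set d : ι → Qb := fun i => c i / c i₀ with hd
      have hd₀ : d i₀ = 1 := div_self hi₀
      have hdsupp : ∀ i, i ∉ s → d i = 0 := fun i hi => by rw [hd]; simp [hsupp i hi]
      have hdrel : ∑ i, d i • f i = 0 := by
        have : ∑ i, d i • f i = (c i₀)⁻¹ • ∑ i, c i • f i := by
          rw [Finset.smul_sum]
          refine Finset.sum_congr rfl fun i _ => ?_
          rw [smul_smul]
          show (c i / c i₀) • f i = _
          rw [div_eq_inv_mul]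
        rw [this, hrel, smul_zero]
      -- the conjugate relations
      have hσrel : ∀ σ : GQ, ∑ i, (σ (d i)) • f i = 0 := by
        intro σ
        funext y
        have h1 := congrFun hdrel (σ⁻¹ • y)
        simp only [Finset.sum_apply, Pi.smul_apply, smul_eq_mul, Pi.zero_apply] at h1 ⊢
        have h2 := congrArg σ h1
        rw [map_sum, map_zero] at h2
        rw [← h2]
        refine Finset.sum_congr rfl fun i _ => ?_
        rw [map_mul, ← hequiv, smul_inv_smul]
      -- all `d i` are fixed
      have hfix : ∀ (σ : GQ) (i : ι), σ (d i) = d i := by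
        intro σ
        have h3 : ∀ i, (d i - σ (d i)) = 0 := by
          apply ih (s.erase i₀) (Finset.erase_ssubset hi₀s)
          · intro i hi
            by_cases hii : i = i₀
            · rw [hii, hd₀, map_one, sub_self]
            · have : i ∉ s := fun h => hi (Finset.mem_erase.mpr ⟨hii, h⟩)
              rw [hdsupp i this, map_zero, sub_self]
          · have : ∑ i, (d i - σ (d i)) • f i = ∑ i, d i • f i - ∑ i, (σ (d i)) • f i := by
              rw [← Finset.sum_sub_distrib]
              exact Finset.sum_congr rfl fun i _ => sub_smul _ _ _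
            rw [this, hdrel, hσrel σ, sub_zero]
        intro i
        exact (sub_eq_zero.mp (h3 i)).symm
      -- hence rational
      have hrat : ∀ i, ∃ q : ℚ, algebraMap ℚ Qb q = d i := fun i =>
        alph_mem_range_of_fixed (d i) fun σ => hfix σ i
      choose q hq using hrat
      have hqrel : ∑ i, q i • f i = 0 := by
        rw [← hdrel]
        refine Finset.sum_congr rfl fun i _ => ?_
        rw [← hq i, algebraMap_smul]
      have hq0 := (Fintype.linearIndependent_iff.mp hQ) q hqrel i₀
      have : d i₀ = 0 := by rw [← hq i₀, hq0, map_zero]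
      rw [hd₀] at this
      exact one_ne_zero this
  intro c hc
  exact key Finset.univ c (fun i hi => absurd (Finset.mem_univ i) hi) hc

end Artin

section Final

variable {R : Type} [CommRing R] [IsDomain R] [IsPrincipalIdealRing R] [Algebra R ℚ]
  [IsFractionRing R ℚ] [Algebra R Qb]
  (htower : ∀ r : R, algebraMap R Qb r = algebraMap ℚ Qb (algebraMap R ℚ r))
variable {V : Type} [AddCommGroup V] [Fintype V] [DistribMulAction GQ V]

include htower in
theorem alph_injective_algebraMap : Function.Injective (algebraMap R Qb) := by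
  intro r r' hrr'
  rw [htower, htower] at hrr'
  exact IsFractionRing.injective R ℚ ((algebraMap ℚ Qb).injective hrr')

include htower in
/-- `R`-independent equivariant functions are `ℚ̄`-independent -/
theorem alph_indep_of_equivariant (H : Subalgebra R (V → Qb))
    (hequiv : ∀ f ∈ H, ∀ (σ : GQ) (x : V), f (σ • x) = σ (f x)) :
    ∀ (n : ℕ) (h : Fin n → (V → Qb)), (∀ i, h i ∈ H) → LinearIndependent R h →
      LinearIndependent Qb h := by
  intro n h hh hR
  haveI := IsScalarTower.of_algebraMap_eq htower
  exact alph_artin h (fun i σ x => hequiv (h i) (hh i) σ x)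
    (hR.localization ℚ (nonZeroDivisors R))

include htower in
/-- the value at `0` of an equivariant element of a finitely generated order lies in `R` -/
theorem alph_counit_of_equivariant (H : Subalgebra R (V → Qb)) (hfg : H.toSubmodule.FG)
    (hequiv : ∀ f ∈ H, ∀ (σ : GQ) (x : V), f (σ • x) = σ (f x)) :
    ∀ f ∈ H, f 0 ∈ (algebraMap R Qb).range := by
  intro f hf
  haveI := IsScalarTower.of_algebraMap_eq htower
  have hfix : ∀ σ : GQ, σ (f 0) = f 0 := fun σ => by
    rw [← hequiv f hf σ 0, smul_zero]
  obtain ⟨q, hq⟩ := alph_mem_range_of_fixed (f 0) hfix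
  have h1 : IsIntegral R f := IsIntegral.of_mem_of_fg H hfg f hf
  have h2 : IsIntegral R (Pi.evalAlgHom R (fun _ : V => Qb) 0 f) := h1.map _
  have h3 : IsIntegral R (algebraMap ℚ Qb q) := by
    rw [hq]
    exact h2
  have h4 : IsIntegral R q := (isIntegral_algebraMap_iff (algebraMap ℚ Qb).injective).mp h3
  obtain ⟨y, hy⟩ := IsIntegrallyClosed.isIntegral_iff.mp h4
  refine ⟨y, ?_⟩
  rw [htower, hy, hq]

include htower in
/-- **the Hopf-order criterion** in the shape of the Prelude's `IsFlatAt` / of S19 -/
theorem alph_flat_of_order (H : Subalgebra R (V → Qb)) (hfg : H.toSubmodule.FG)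
    (hequiv : ∀ f ∈ H, ∀ (σ : GQ) (x : V), f (σ • x) = σ (f x))
    (hsep : ∀ x y : V, x ≠ y → ∃ f ∈ H, f x ≠ f y)
    (hcomul : ∀ f ∈ H, ∃ (n : ℕ) (g h : Fin n → (V → Qb)), (∀ i, g i ∈ H) ∧ (∀ i, h i ∈ H) ∧
      ∀ x y, f (x + y) = ∑ i, g i x * h i y) :
    ∃ (H' : Type) (_ : CommRing H') (_ : HopfAlgebra R H'), Module.Finite R H' ∧
      Module.Flat R H' ∧ Coalgebra.IsCocomm R H' ∧
      ∃ e : WithConv (H' →ₐ[R] Qb) ≃ V, (∀ f g, e (f * g) = e f + e g) ∧
        ∀ (σ : GQ) (f g : WithConv (H' →ₐ[R] Qb)), (∀ h : H', g h = σ (f h)) → e g = σ • e f :=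
  alph_hopf (alphOrdOfFg (alph_injective_algebraMap htower) H hfg
    (alph_indep_of_equivariant htower H hequiv)
    (alph_counit_of_equivariant htower H hfg hequiv) hcomul) hsep (G := GQ) (fun σ z => σ z)
    (fun σ x => σ • x) (fun f hf σ x => hequiv f hf σ x)

end Final

end Fermat.Agent.Alpha
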