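/-
ALPHA, package P1-C (helper1), part 2: **equivariant functions on finite `G_ℚ`-sets**.

* `alph_subalgebra_eq_top` : a `K`-subalgebra of `K^X` (`X` finite) separating points is everything.
* `alph_exists_smul_mem` : if an order `H ≤ Map_G(V, ℚ̄)` separates points then every equivariant
  function has a nonzero `R`-multiple in `H` (i.e. `ℚ ⊗ H = Map_G(V, ℚ̄)`).
* `alph_exists_injective` : if equivariant functions separate the points of `V`, some equivariant
  function is injective.
* `alph_sep_of_surjective` : then equivariant functions separate the points of every equivariant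
  quotient of `V` (coefficients of `∏_{v ↦ w} (T - h v)`).
-/
import Mathlib
import Fermat.Agent.Lib.Alpha.Hopf.Galois

set_option autoImplicit false
set_option linter.unusedSectionVars false
set_option linter.unusedVariables false
set_option linter.style.haveILetI false

open scoped TensorProduct

namespace Fermat.Agent.Alpha

local notation "Qb" => AlgebraicClosure ℚ
local notation "GQ" => (AlgebraicClosure ℚ ≃ₐ[ℚ] AlgebraicClosure ℚ)

section Smul

variable {R K X : Type} [CommRing R] [CommRing K] [Algebra R K]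

theorem alph_algebraMap_mul_mem (H : Subalgebra R (X → K)) (r : R) {g : X → K} (hg : g ∈ H) :
    (fun x => algebraMap R K r * g x) ∈ H := by
  have : (fun x => algebraMap R K r * g x) = algebraMap R (X → K) r * g := rfl
  rw [this]
  exact H.mul_mem (H.algebraMap_mem r) hg

theorem alph_smul_mem_span {R K X : Type} [CommRing R] [Field K] [Algebra R K]
    (S : Submodule K (X → K)) (r : R) {m : X → K} (hm : m ∈ S) : r • m ∈ S := by
  rw [← algebraMap_smul K r m]
  exact S.smul_mem _ hm

end Smul

section Top

variable {K X : Type} [Field K] [Fintype X]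

/-- a subalgebra of `K^X` which separates points is everything -/
theorem alph_subalgebra_eq_top (A : Subalgebra K (X → K))
    (hsep : ∀ x y : X, x ≠ y → ∃ f ∈ A, f x ≠ f y) : A = ⊤ := by
  classical
  choose! φ hφA hφ using hsep
  -- the indicator functions
  have hδ : ∀ x : X, (fun j => if x = j then (1 : K) else 0) ∈ A := by
    intro x
    have h1 : (fun j => if x = j then (1 : K) else 0)
        = ∏ y ∈ Finset.univ.erase x, ((φ x y - algebraMap K (X → K) (φ x y y))
          * algebraMap K (X → K) ((φ x y x - φ x y y)⁻¹)) := by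
      funext j
      rw [Finset.prod_apply]
      by_cases hj : x = j
      · subst hj
        rw [if_pos rfl]
        symm
        refine Finset.prod_eq_one fun y hy => ?_
        have hxy : x ≠ y := fun h => (Finset.mem_erase.mp hy).1 h.symm
        have h2 : φ x y x - φ x y y ≠ 0 := sub_ne_zero.mpr (hφ x y hxy)
        simp only [Pi.mul_apply, Pi.sub_apply, Pi.algebraMap_apply, Algebra.algebraMap_self,
          RingHom.id_apply]
        exact mul_inv_cancel₀ h2
      · rw [if_neg hj]
        symm
        refine Finset.prod_eq_zero (Finset.mem_erase.mpr ⟨fun h => hj h.symm, Finset.mem_univ j⟩) ?_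
        simp only [Pi.mul_apply, Pi.sub_apply, Pi.algebraMap_apply, Algebra.algebraMap_self,
          RingHom.id_apply, sub_self, zero_mul]
    rw [h1]
    refine A.prod_mem fun y hy => ?_
    have hxy : x ≠ y := fun h => (Finset.mem_erase.mp hy).1 h.symm
    exact A.mul_mem (A.sub_mem (hφA x y hxy) (A.algebraMap_mem _)) (A.algebraMap_mem _)
  rw [eq_top_iff]
  intro f _
  rw [pi_eq_sum_univ f]
  exact A.sum_mem fun x _ => A.smul_mem (hδ x) _

end Top

section Eqv

variable {V W : Type} [MulAction GQ V] [MulAction GQ W]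

/-- `G_ℚ`-equivariant functions -/
def AlphEqv (f : V → Qb) : Prop := ∀ (σ : GQ) (x : V), f (σ • x) = σ (f x)

variable (V) in
/-- the `ℚ`-algebra of equivariant functions -/
def alphEqvAlg : Subalgebra ℚ (V → Qb) where
  carrier := {f | AlphEqv f}
  mul_mem' := fun {f g} hf hg σ x => by
    rw [Pi.mul_apply, Pi.mul_apply, hf σ x, hg σ x, map_mul]
  add_mem' := fun {f g} hf hg σ x => by
    rw [Pi.add_apply, Pi.add_apply, hf σ x, hg σ x, map_add]
  algebraMap_mem' := fun q σ x => by
    rw [Pi.algebraMap_apply, Pi.algebraMap_apply, AlgEquiv.commutes]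

theorem mem_alphEqvAlg {f : V → Qb} : f ∈ alphEqvAlg V ↔ AlphEqv f := Iff.rfl

/-- if equivariant functions separate points, some equivariant function is injective -/
theorem alph_exists_injective [Finite V]
    (hsep : ∀ x y : V, x ≠ y → ∃ f : V → Qb, AlphEqv f ∧ f x ≠ f y) :
    ∃ h : V → Qb, AlphEqv h ∧ Function.Injective h := by
  classical
  set E := (alphEqvAlg V).toSubmodule with hE
  let ι := {p : V × V // p.1 ≠ p.2}
  let P : ι → Submodule ℚ ↥E := fun i =>
    LinearMap.ker (((LinearMap.proj (R := ℚ) (φ := fun _ : V => Qb) i.1.1)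
      - (LinearMap.proj (R := ℚ) (φ := fun _ : V => Qb) i.1.2)) ∘ₗ E.subtype)
  have hP : ∀ (i : ι) (f : ↥E), f ∈ P i ↔ (f : V → Qb) i.1.1 = (f : V → Qb) i.1.2 := by
    intro i f
    show (((LinearMap.proj (R := ℚ) (φ := fun _ : V => Qb) i.1.1)
      - (LinearMap.proj (R := ℚ) (φ := fun _ : V => Qb) i.1.2)) ∘ₗ E.subtype) f = 0 ↔ _
    rw [LinearMap.comp_apply, LinearMap.sub_apply, LinearMap.proj_apply, LinearMap.proj_apply,
      sub_eq_zero]
    rfl
  have hne : ∀ i, P i ≠ ⊤ := by
    intro i htop
    obtain ⟨f, hf, hfx⟩ := hsep i.1.1 i.1.2 i.2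
    have : (⟨f, hf⟩ : ↥E) ∈ P i := by
      rw [htop]
      exact Submodule.mem_top
    exact hfx ((hP i _).mp this)
  obtain ⟨h, hh⟩ := Submodule.exists_forall_notMem_of_forall_ne_top P hne
  refine ⟨h.1, h.2, fun x y hxy => ?_⟩
  by_contra hne'
  exact hh ⟨(x, y), hne'⟩ ((hP _ h).mpr hxy)

/-- equivariant functions separate the points of an equivariant quotient -/
theorem alph_sep_of_surjective [Fintype V] (π : V → W) (hπ : Function.Surjective π)
    (hπσ : ∀ (σ : GQ) (v : V), π (σ • v) = σ • π v) (h : V → Qb) (hh : AlphEqv h)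
    (hinj : Function.Injective h) :
    ∀ w w' : W, w ≠ w' → ∃ F : W → Qb, AlphEqv F ∧ F w ≠ F w' := by
  classical
  set P : W → Polynomial Qb := fun w =>
    ∏ v ∈ Finset.univ.filter (fun v => π v = w), (Polynomial.X - Polynomial.C (h v)) with hPdef
  have hPσ : ∀ (σ : GQ) (w : W), P (σ • w) = (P w).map (σ : Qb →+* Qb) := by
    intro σ w
    rw [hPdef]
    simp only
    rw [Polynomial.map_prod]
    refine Finset.prod_nbij' (fun v => σ⁻¹ • v) (fun v => σ • v) ?_ ?_ ?_ ?_ ?_
    · intro v hv
      rw [Finset.mem_filter] at hv ⊢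
      refine ⟨Finset.mem_univ _, ?_⟩
      rw [hπσ, hv.2, inv_smul_smul]
    · intro v hv
      rw [Finset.mem_filter] at hv ⊢
      refine ⟨Finset.mem_univ _, ?_⟩
      rw [hπσ, hv.2]
    · intro v _
      exact smul_inv_smul σ v
    · intro v _
      exact inv_smul_smul σ v
    · intro v _
      rw [Polynomial.map_sub, Polynomial.map_X, Polynomial.map_C]
      have : h v = σ (h (σ⁻¹ • v)) := by rw [← hh, smul_inv_smul]
      rw [this]
      rfl
  intro w w' hww'
  have hPne : P w ≠ P w' := by
    intro hP
    obtain ⟨v₀, hv₀⟩ := hπ w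
    have h1 : (P w).eval (h v₀) = 0 := by
      rw [hPdef]
      simp only
      rw [Polynomial.eval_prod]
      refine Finset.prod_eq_zero (Finset.mem_filter.mpr ⟨Finset.mem_univ v₀, hv₀⟩) ?_
      simp
    rw [hP, hPdef] at h1
    simp only at h1
    rw [Polynomial.eval_prod, Finset.prod_eq_zero_iff] at h1
    obtain ⟨v', hv', h2⟩ := h1
    rw [Polynomial.eval_sub, Polynomial.eval_X, Polynomial.eval_C, sub_eq_zero] at h2
    have h3 := hinj h2
    rw [Finset.mem_filter] at hv'
    exact hww' (by rw [← hv₀, h3, hv'.2])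
  obtain ⟨j, hj⟩ : ∃ j, (P w).coeff j ≠ (P w').coeff j := by
    by_contra hcon
    push Not at hcon
    exact hPne (Polynomial.ext hcon)
  refine ⟨fun w => (P w).coeff j, fun σ w => ?_, hj⟩
  show (P (σ • w)).coeff j = σ ((P w).coeff j)
  rw [hPσ, Polynomial.coeff_map]
  rfl

end Eqv

section Span

variable {R : Type} [CommRing R] [IsDomain R] [IsPrincipalIdealRing R] [Algebra R ℚ]
  [IsFractionRing R ℚ] [Algebra R Qb]
  (htower : ∀ r : R, algebraMap R Qb r = algebraMap ℚ Qb (algebraMap R ℚ r))
variable {V : Type} [AddCommGroup V] [Fintype V] [DistribMulAction GQ V]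

include htower in
/-- **`ℚ ⊗ H = Map_G(V, ℚ̄)`**: every equivariant function has a nonzero multiple in a separating
order -/
theorem alph_exists_smul_mem (H : Subalgebra R (V → Qb)) (hfg : H.toSubmodule.FG)
    (hequiv : ∀ f ∈ H, ∀ (σ : GQ) (x : V), f (σ • x) = σ (f x))
    (hsep : ∀ x y : V, x ≠ y → ∃ f ∈ H, f x ≠ f y) (f : V → Qb) (hf : AlphEqv f) :
    ∃ r : R, r ≠ 0 ∧ (fun x => algebraMap R Qb r * f x) ∈ H := by
  classical
  haveI := IsScalarTower.of_algebraMap_eq htower
  obtain ⟨n, b, hb, hsp⟩ := alphGood_of_fg (alph_injective_algebraMap htower) H.toSubmodule hfg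
    (alph_indep_of_equivariant htower H hequiv)
  have hbH : ∀ i, b i ∈ H := fun i => by
    have : b i ∈ H.toSubmodule := by
      rw [hsp]
      exact Submodule.subset_span ⟨i, rfl⟩
    exact this
  -- the `ℚ̄`-span of `b` is everything
  have htop : Submodule.span Qb (Set.range b) = ⊤ := by
    have h1 : Algebra.adjoin Qb ((H : Set (V → Qb))) = ⊤ := by
      apply alph_subalgebra_eq_top
      intro x y hxy
      obtain ⟨g, hg, hgxy⟩ := hsep x y hxy
      exact ⟨g, Algebra.subset_adjoin hg, hgxy⟩
    have h2 : Submodule.span Qb ((H : Set (V → Qb))) = ⊤ := by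
      have h3 := Algebra.adjoin_eq_span Qb ((H : Set (V → Qb)))
      have h4 : (Submonoid.closure ((H : Set (V → Qb))) : Set (V → Qb)) = (H : Set (V → Qb)) := by
        have := Submonoid.closure_eq H.toSubmonoid
        exact congrArg (fun S : Submonoid (V → Qb) => (S : Set (V → Qb))) this
      rw [h4, h1] at h3
      rw [← h3]
      rfl
    have h5 : (H : Set (V → Qb)) ⊆ (Submodule.span Qb (Set.range b) : Set (V → Qb)) := by
      intro g hg
      have hg' : g ∈ Submodule.span R (Set.range b) := by
        rw [← hsp]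
        exact hg
      obtain ⟨r, hr⟩ := (Submodule.mem_span_range_iff_exists_fun R).mp hg'
      rw [← hr]
      refine Submodule.sum_mem _ fun i _ => ?_
      exact alph_smul_mem_span _ (r i) (Submodule.subset_span ⟨i, rfl⟩)
    rw [eq_top_iff, ← h2]
    exact Submodule.span_le.mpr h5
  have hfmem : f ∈ Submodule.span Qb (Set.range b) := by
    rw [htop]
    exact Submodule.mem_top
  obtain ⟨c, hc⟩ := (Submodule.mem_span_range_iff_exists_fun Qb).mp hfmem
  -- the coefficients are fixed by `G_ℚ`
  have hσrel : ∀ σ : GQ, ∑ i, (σ (c i)) • b i = f := by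
    intro σ
    funext y
    have h1 := congrFun hc (σ⁻¹ • y)
    simp only [Finset.sum_apply, Pi.smul_apply, smul_eq_mul] at h1 ⊢
    have h2 := congrArg σ h1
    rw [map_sum, ← hf, smul_inv_smul] at h2
    rw [← h2]
    refine Finset.sum_congr rfl fun i _ => ?_
    rw [map_mul, ← hequiv (b i) (hbH i), smul_inv_smul]
  have hfix : ∀ (σ : GQ) (i : Fin n), σ (c i) = c i := by
    intro σ i
    have h1 : ∑ i, (σ (c i) - c i) • b i = 0 := by
      have : ∑ i, (σ (c i) - c i) • b i = ∑ i, (σ (c i)) • b i - ∑ i, c i • b i := by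
        rw [← Finset.sum_sub_distrib]
        exact Finset.sum_congr rfl fun i _ => sub_smul _ _ _
      rw [this, hσrel σ, hc, sub_self]
    exact sub_eq_zero.mp ((Fintype.linearIndependent_iff.mp hb) _ h1 i)
  have hrat : ∀ i, ∃ q : ℚ, algebraMap ℚ Qb q = c i := fun i =>
    alph_mem_range_of_fixed (c i) fun σ => hfix σ i
  choose q hq using hrat
  -- clear denominators
  obtain ⟨d, hd⟩ := IsLocalization.exist_integer_multiples (nonZeroDivisors R) Finset.univ q
  have hint : ∀ i, ∃ a : R, algebraMap R ℚ a = (d : R) • q i := fun i => hd i (Finset.mem_univ i)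
  choose a ha using hint
  refine ⟨(d : R), nonZeroDivisors.ne_zero d.2, ?_⟩
  have h6 : (fun x => algebraMap R Qb (d : R) * f x)
      = ∑ i, (fun x => algebraMap R Qb (a i) * b i x) := by
    funext x
    rw [← hc, Finset.sum_apply, Finset.sum_apply, Finset.mul_sum]
    refine Finset.sum_congr rfl fun i _ => ?_
    rw [Pi.smul_apply, smul_eq_mul, htower (a i), ha i, Algebra.smul_def, map_mul, ← htower,
      hq i, mul_assoc]
  rw [h6]
  exact H.sum_mem fun i _ => alph_algebraMap_mul_mem H (a i) (hbH i)

end Span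

end Fermat.Agent.Alpha
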