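/-
ALPHA, package P1 (helper1), part 9: **the Hopf-order criterion over `ℤ_(ℓ)`** =
`GaloisRep.ratLocalizedAt ℓ`, in the literal shape of S19 / `GaloisRepAdic.IsFlatAt`.
-/
import Mathlib
import Fermat.Agent.Lib.Alpha.Hopf.Galois
import Fermat.Agent.Lib.Igusa.Instantiate

set_option autoImplicit false
set_option linter.unusedSectionVars false
set_option linter.unusedVariables false
set_option linter.style.haveILetI false

open scoped TensorProduct

namespace Fermat.Agent.Alpha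

local notation "Qb" => AlgebraicClosure ℚ
local notation "GQ" => (AlgebraicClosure ℚ ≃ₐ[ℚ] AlgebraicClosure ℚ)

variable (ℓ : ℕ) [Fact ℓ.Prime]

instance alph_isFractionRing_zl : IsFractionRing ↥(GaloisRep.ratLocalizedAt ℓ) ℚ := by
  apply IsFractionRing.of_field
  intro z
  have hden : ((z.den : ℤ) : ℚ) ∈ GaloisRep.ratLocalizedAt ℓ := by
    show ((z.den : ℤ) : ℚ).den.Coprime ℓ
    simp
  have hnum : ((z.num : ℤ) : ℚ) ∈ GaloisRep.ratLocalizedAt ℓ := by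
    show ((z.num : ℤ) : ℚ).den.Coprime ℓ
    simp
  refine ⟨⟨_, hnum⟩, ⟨_, hden⟩, ?_⟩
  show z = ((z.num : ℤ) : ℚ) / ((z.den : ℤ) : ℚ)
  exact_mod_cast (Rat.num_div_den z).symm

/-- **the Hopf-order criterion over `ℤ_(ℓ)`** -/
theorem alph_flat_of_order_zl {V : Type} [AddCommGroup V] [Fintype V] [DistribMulAction GQ V]
    (H : Subalgebra ↥(GaloisRep.ratLocalizedAt ℓ) (V → Qb)) (hfg : H.toSubmodule.FG)
    (hequiv : ∀ f ∈ H, ∀ (σ : GQ) (x : V), f (σ • x) = σ (f x))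
    (hsep : ∀ x y : V, x ≠ y → ∃ f ∈ H, f x ≠ f y)
    (hcomul : ∀ f ∈ H, ∃ (n : ℕ) (g h : Fin n → (V → Qb)), (∀ i, g i ∈ H) ∧ (∀ i, h i ∈ H) ∧
      ∀ x y, f (x + y) = ∑ i, g i x * h i y) :
    ∃ (H' : Type) (_ : CommRing H') (_ : HopfAlgebra (GaloisRep.ratLocalizedAt ℓ) H'),
      Module.Finite (GaloisRep.ratLocalizedAt ℓ) H' ∧ Module.Flat (GaloisRep.ratLocalizedAt ℓ) H' ∧
      Coalgebra.IsCocomm (GaloisRep.ratLocalizedAt ℓ) H' ∧
      ∃ e : WithConv (H' →ₐ[GaloisRep.ratLocalizedAt ℓ] AlgebraicClosure ℚ) ≃ V,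
        (∀ f g, e (f * g) = e f + e g) ∧
        ∀ (σ : AlgebraicClosure ℚ ≃ₐ[ℚ] AlgebraicClosure ℚ)
          (f g : WithConv (H' →ₐ[GaloisRep.ratLocalizedAt ℓ] AlgebraicClosure ℚ)),
          (∀ h : H', g h = σ (f h)) → e g = σ • e f := by
  haveI : IsDiscreteValuationRing ↥(GaloisRep.ratLocalizedAt ℓ) :=
    Fermat.Agent.Igusa.zl_isDiscreteValuationRing ℓ
  exact alph_flat_of_order (R := ↥(GaloisRep.ratLocalizedAt ℓ)) (fun r => rfl) H hfg hequiv hsep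
    hcomul

end Fermat.Agent.Alpha
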