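/-
ALPHA, package P1-C (helper1), part 3: **closure properties of Hopf orders**.

`AlphIsOrd H` bundles the hypotheses of `alph_flat_of_order` for an `R`-subalgebra
`H ≤ Map(V, ℚ̄)`.  Such orders pass to `G_ℚ`-stable subgroups (`AlphIsOrd.of_injective`), to
equivariant quotients (`AlphIsOrd.of_surjective`) and to products (`AlphIsOrd.prod`).

Over `ℤ_(ℓ)`: `AlphHasOrder ℓ V`, with `AlphHasOrder.flat` (the S19 / `IsFlatAt` existential),
`AlphHasOrder.of_injective`, `AlphHasOrder.of_surjective`, `AlphHasOrder.prod`.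
-/
import Mathlib
import Fermat.Agent.Lib.Alpha.Hopf.Dec
import Fermat.Agent.Lib.Alpha.Hopf.Eqv
import Fermat.Agent.Lib.Alpha.Hopf.Zl

set_option autoImplicit false
set_option linter.unusedSectionVars false
set_option linter.unusedVariables false
set_option linter.style.haveILetI false

open scoped TensorProduct

namespace Fermat.Agent.Alpha

local notation "Qb" => AlgebraicClosure ℚ
local notation "GQ" => (AlgebraicClosure ℚ ≃ₐ[ℚ] AlgebraicClosure ℚ)

section Def

variable {R : Type} [CommRing R] [Algebra R Qb]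
variable {V : Type} [AddCommGroup V] [DistribMulAction GQ V]

/-- the hypotheses of `alph_flat_of_order`, bundled -/
structure AlphIsOrd (H : Subalgebra R (V → Qb)) : Prop where
  fg : H.toSubmodule.FG
  eqv : ∀ f ∈ H, ∀ (σ : GQ) (x : V), f (σ • x) = σ (f x)
  sep : ∀ x y : V, x ≠ y → ∃ f ∈ H, f x ≠ f y
  comul : ∀ f ∈ H, ∃ (n : ℕ) (g h : Fin n → (V → Qb)), (∀ i, g i ∈ H) ∧ (∀ i, h i ∈ H) ∧
    ∀ x y, f (x + y) = ∑ i, g i x * h i y

theorem AlphIsOrd.dec {H : Subalgebra R (V → Qb)} (hH : AlphIsOrd H) {f : V → Qb} (hf : f ∈ H) :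
    AlphDec H.toSubmodule H.toSubmodule (fun x y => f (x + y)) := by
  obtain ⟨n, g, h, hg, hh, hF⟩ := hH.comul f hf
  exact ⟨n, g, h, hg, hh, hF⟩

theorem alph_comul_of_dec {H : Subalgebra R (V → Qb)} {f : V → Qb}
    (h : AlphDec H.toSubmodule H.toSubmodule (fun x y => f (x + y))) :
    ∃ (n : ℕ) (g h : Fin n → (V → Qb)), (∀ i, g i ∈ H) ∧ (∀ i, h i ∈ H) ∧
      ∀ x y, f (x + y) = ∑ i, g i x * h i y := by
  obtain ⟨n, g, k, hg, hk, hF⟩ := h
  exact ⟨n, g, k, hg, hk, hF⟩

end Def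

section Sub

variable {R : Type} [CommRing R] [Algebra R Qb]
variable {V W : Type} [AddCommGroup V] [DistribMulAction GQ V] [AddCommGroup W]
  [DistribMulAction GQ W]

/-- **Hopf orders restrict to `G_ℚ`-stable subgroups** -/
theorem AlphIsOrd.of_injective {H : Subalgebra R (V → Qb)} (hH : AlphIsOrd H) (φ : W →+ V)
    (hφ : Function.Injective φ) (hφσ : ∀ (σ : GQ) (w : W), φ (σ • w) = σ • φ w) :
    AlphIsOrd (H.map (alphPre R (φ : W → V))) where
  fg := by
    rw [Subalgebra.map_toSubmodule]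
    exact hH.fg.map _
  eqv := by
    rintro f' ⟨f, hf, rfl⟩ σ w
    show f (φ (σ • w)) = σ (f (φ w))
    rw [hφσ, hH.eqv f hf]
  sep := by
    intro w w' hww'
    obtain ⟨f, hf, hfw⟩ := hH.sep (φ w) (φ w') (fun h => hww' (hφ h))
    exact ⟨alphPre R (φ : W → V) f, ⟨f, hf, rfl⟩, hfw⟩
  comul := by
    rintro f' ⟨f, hf, rfl⟩
    obtain ⟨n, g, h, hg, hh, hF⟩ := hH.comul f hf
    refine ⟨n, fun i => alphPre R (φ : W → V) (g i), fun i => alphPre R (φ : W → V) (h i),
      fun i => ⟨g i, hg i, rfl⟩, fun i => ⟨h i, hh i, rfl⟩, fun x y => ?_⟩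
    show f (φ (x + y)) = ∑ i, g i (φ x) * h i (φ y)
    rw [map_add, hF]

end Sub

section Quot

variable {R : Type} [CommRing R] [IsDomain R] [IsPrincipalIdealRing R] [Algebra R ℚ]
  [IsFractionRing R ℚ] [Algebra R Qb]
  (htower : ∀ r : R, algebraMap R Qb r = algebraMap ℚ Qb (algebraMap R ℚ r))
variable {V W : Type} [AddCommGroup V] [Fintype V] [DistribMulAction GQ V] [AddCommGroup W]
  [DistribMulAction GQ W]

include htower in
/-- `H` is a good submodule -/
theorem AlphIsOrd.good {H : Subalgebra R (V → Qb)} (hH : AlphIsOrd H) : AlphGood H.toSubmodule :=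
  alphGood_of_fg (alph_injective_algebraMap htower) H.toSubmodule hH.fg
    (alph_indep_of_equivariant htower H hH.eqv)

include htower in
/-- the translation invariants of `H` form a good submodule -/
theorem AlphIsOrd.good_fix {H : Subalgebra R (V → Qb)} (hH : AlphIsOrd H) (T : Set V) :
    AlphGood (alphFix H T).toSubmodule := by
  haveI : Module.Finite R ↥H.toSubmodule := Module.Finite.iff_fg.mpr hH.fg
  haveI : IsNoetherian R ↥H.toSubmodule := isNoetherian_of_isNoetherianRing_of_finite R _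
  have hfg : (alphFix H T).toSubmodule.FG :=
    isNoetherian_submodule.mp ‹_› _ (fun f hf => alphFix_le H T hf)
  refine alphGood_of_fg (alph_injective_algebraMap htower) _ hfg ?_
  intro n h hh hR
  exact alph_indep_of_equivariant htower H hH.eqv n h (fun i => alphFix_le H T (hh i)) hR

include htower in
/-- **Hopf orders descend to equivariant quotients** -/
theorem AlphIsOrd.of_surjective {H : Subalgebra R (V → Qb)} (hH : AlphIsOrd H) (π : V →+ W)
    (hπ : Function.Surjective π) (hπσ : ∀ (σ : GQ) (v : V), π (σ • v) = σ • π v) :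
    AlphIsOrd (H.comap (alphPre R (π : V → W))) := by
  classical
  haveI : Module.Finite R ↥H.toSubmodule := Module.Finite.iff_fg.mpr hH.fg
  haveI : IsNoetherian R ↥H.toSubmodule := isNoetherian_of_isNoetherianRing_of_finite R _
  -- functions on `W` are determined by their pull-back
  have hpre_inj : Function.Injective (alphPre R (K := Qb) (π : V → W)) := by
    intro f g hfg
    funext w
    obtain ⟨v, rfl⟩ := hπ w
    exact congrFun hfg v
  set T : Set V := {k | π k = 0} with hT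
  -- invariant functions descend
  have hdesc : ∀ g ∈ alphFix H T, ∃ g' : W → Qb, g' ∈ H.comap (alphPre R (π : V → W)) ∧
      ∀ v, g v = g' (π v) := by
    intro g hg
    have hval : ∀ v, g v = g (Function.surjInv hπ (π v)) := by
      intro v
      have h1 : π (Function.surjInv hπ (π v) - v) = 0 := by
        rw [map_sub, Function.surjInv_eq hπ, sub_self]
      have h2 := hg.2 _ h1 v
      rw [add_sub_cancel] at h2
      exact h2.symm
    refine ⟨fun w => g (Function.surjInv hπ w), ?_, hval⟩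
    rw [Subalgebra.mem_comap]
    have : alphPre R (π : V → W) (fun w => g (Function.surjInv hπ w)) = g := by
      funext v
      exact (hval v).symm
    rw [this]
    exact hg.1
  refine ⟨?_, ?_, ?_, ?_⟩
  · -- finite generation
    let L : ↥(H.comap (alphPre R (K := Qb) (π : V → W))).toSubmodule →ₗ[R] ↥H.toSubmodule :=
      { toFun := fun f => ⟨alphPre R (π : V → W) f.1, f.2⟩
        map_add' := fun f g => rfl
        map_smul' := fun r f => rfl }
    have hL : Function.Injective L := by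
      intro f g hfg
      apply Subtype.ext
      exact hpre_inj (congrArg Subtype.val hfg)
    haveI := Module.Finite.of_injective L hL
    exact Module.Finite.iff_fg.mp this
  · -- equivariance
    intro f hf σ w
    obtain ⟨v, rfl⟩ := hπ w
    rw [← hπσ]
    exact hH.eqv _ hf σ v
  · -- separation
    intro w w' hww'
    obtain ⟨h, hh, hinj⟩ := alph_exists_injective (V := V) fun x y hxy => by
      obtain ⟨f, hf, hfxy⟩ := hH.sep x y hxy
      exact ⟨f, hH.eqv f hf, hfxy⟩
    obtain ⟨F, hF, hFw⟩ := alph_sep_of_surjective (π : V → W) hπ hπσ h hh hinj w w' hww'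
    have hFπ : AlphEqv (fun v => F (π v)) := fun σ v => by
      show F (π (σ • v)) = σ (F (π v))
      rw [hπσ, hF]
    obtain ⟨r, hr, hrF⟩ := alph_exists_smul_mem htower H hH.fg hH.eqv hH.sep _ hFπ
    refine ⟨fun w => algebraMap R Qb r * F w, hrF, ?_⟩
    have hr' : algebraMap R Qb r ≠ 0 := fun h0 =>
      hr (alph_injective_algebraMap htower (by rw [h0, map_zero]))
    exact fun h0 => hFw (mul_left_cancel₀ hr' h0)
  · -- comultiplication
    intro f hf
    have hfH : alphPre R (π : V → W) f ∈ alphFix H T := by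
      refine ⟨hf, fun k hk v => ?_⟩
      show f (π (v + k)) = f (π v)
      rw [map_add, hk, add_zero]
    have hdec := alphDec_fix H T (hH.good htower) (hH.good_fix htower T) hfH (hH.dec hfH.1)
    obtain ⟨n, g, h, hg, hh, hF⟩ := hdec
    choose g' hg' hgg' using fun i => hdesc (g i) (hg i)
    choose h' hh' hhh' using fun i => hdesc (h i) (hh i)
    refine ⟨n, g', h', hg', hh', fun x y => ?_⟩
    obtain ⟨v, rfl⟩ := hπ x
    obtain ⟨v', rfl⟩ := hπ y
    have := hF v v'
    simp only [alphPre_apply] at this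
    rw [← map_add, this]
    exact Finset.sum_congr rfl fun i _ => by rw [hgg' i, hhh' i]

end Quot

section Prod

variable {R : Type} [CommRing R] [IsDomain R] [IsPrincipalIdealRing R] [Algebra R ℚ]
  [IsFractionRing R ℚ] [Algebra R Qb]
  (htower : ∀ r : R, algebraMap R Qb r = algebraMap ℚ Qb (algebraMap R ℚ r))
variable {V₁ V₂ : Type} [AddCommGroup V₁] [DistribMulAction GQ V₁] [AddCommGroup V₂]
  [DistribMulAction GQ V₂]

include htower in
/-- **products of Hopf orders** -/
theorem AlphIsOrd.prod {H₁ : Subalgebra R (V₁ → Qb)} {H₂ : Subalgebra R (V₂ → Qb)}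
    (h₁ : AlphIsOrd H₁) (h₂ : AlphIsOrd H₂) :
    AlphIsOrd (H₁.map (alphPre R (Prod.fst : V₁ × V₂ → V₁))
      ⊔ H₂.map (alphPre R (Prod.snd : V₁ × V₂ → V₂))) := by
  set A₁ := H₁.map (alphPre R (K := Qb) (Prod.fst : V₁ × V₂ → V₁)) with hA₁
  set A₂ := H₂.map (alphPre R (K := Qb) (Prod.snd : V₁ × V₂ → V₂)) with hA₂
  have hadj : A₁ ⊔ A₂ = Algebra.adjoin R ((A₁ : Set (V₁ × V₂ → Qb)) ∪ (A₂ : Set (V₁ × V₂ → Qb))) := by
    rw [Algebra.adjoin_union, Algebra.adjoin_eq, Algebra.adjoin_eq]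
  have hle₁ : A₁ ≤ A₁ ⊔ A₂ := le_sup_left
  have hle₂ : A₂ ≤ A₁ ⊔ A₂ := le_sup_right
  refine ⟨?_, ?_, ?_, ?_⟩
  · -- finite generation
    haveI : Module.Finite R ↥A₁ := by
      have : A₁.toSubmodule.FG := by
        rw [hA₁, Subalgebra.map_toSubmodule]
        exact h₁.fg.map _
      exact Module.Finite.iff_fg.mpr this
    haveI : Module.Finite R ↥A₂ := by
      have : A₂.toSubmodule.FG := by
        rw [hA₂, Subalgebra.map_toSubmodule]
        exact h₂.fg.map _
      exact Module.Finite.iff_fg.mpr this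
    have := Subalgebra.finite_sup A₁ A₂
    exact Module.Finite.iff_fg.mp this
  · -- equivariance
    intro f hf
    rw [hadj] at hf
    induction hf using Algebra.adjoin_induction with
    | mem f hf =>
      rcases hf with ⟨g, hg, rfl⟩ | ⟨g, hg, rfl⟩
      · intro σ x
        exact h₁.eqv g hg σ x.1
      · intro σ x
        exact h₂.eqv g hg σ x.2
    | algebraMap r =>
      intro σ x
      show algebraMap R Qb r = σ (algebraMap R Qb r)
      rw [htower, AlgEquiv.commutes]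
    | add f g _ _ ihf ihg =>
      intro σ x
      rw [Pi.add_apply, Pi.add_apply, ihf, ihg, map_add]
    | mul f g _ _ ihf ihg =>
      intro σ x
      rw [Pi.mul_apply, Pi.mul_apply, ihf, ihg, map_mul]
  · -- separation
    intro x y hxy
    by_cases h1 : x.1 = y.1
    · have h2 : x.2 ≠ y.2 := fun h2 => hxy (Prod.ext h1 h2)
      obtain ⟨f, hf, hfxy⟩ := h₂.sep x.2 y.2 h2
      exact ⟨alphPre R (Prod.snd : V₁ × V₂ → V₂) f, hle₂ ⟨f, hf, rfl⟩, hfxy⟩
    · obtain ⟨f, hf, hfxy⟩ := h₁.sep x.1 y.1 h1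
      exact ⟨alphPre R (Prod.fst : V₁ × V₂ → V₁) f, hle₁ ⟨f, hf, rfl⟩, hfxy⟩
  · -- comultiplication
    intro f hf
    apply alph_comul_of_dec
    have key := alphDec_adjoin ((A₁ : Set (V₁ × V₂ → Qb)) ∪ (A₂ : Set (V₁ × V₂ → Qb))) (A₁ ⊔ A₂)
      (le_of_eq hadj.symm) ?_ f (by rw [← hadj]; exact hf)
    · exact key
    · rintro f' (⟨g, hg, rfl⟩ | ⟨g, hg, rfl⟩)
      · obtain ⟨n, a, b, ha, hb, hF⟩ := h₁.comul g hg
        exact ⟨n, fun i => alphPre R (Prod.fst : V₁ × V₂ → V₁) (a i),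
          fun i => alphPre R (Prod.fst : V₁ × V₂ → V₁) (b i),
          fun i => hle₁ ⟨a i, ha i, rfl⟩, fun i => hle₁ ⟨b i, hb i, rfl⟩, fun x y => hF x.1 y.1⟩
      · obtain ⟨n, a, b, ha, hb, hF⟩ := h₂.comul g hg
        exact ⟨n, fun i => alphPre R (Prod.snd : V₁ × V₂ → V₂) (a i),
          fun i => alphPre R (Prod.snd : V₁ × V₂ → V₂) (b i),
          fun i => hle₂ ⟨a i, ha i, rfl⟩, fun i => hle₂ ⟨b i, hb i, rfl⟩, fun x y => hF x.2 y.2⟩

end Prod

section Zl

variable (ℓ : ℕ) [Fact ℓ.Prime]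

/-- the finite `G_ℚ`-module `V` has a Hopf order over `ℤ_(ℓ)` (a finite flat model at `ℓ`) -/
def AlphHasOrder (V : Type) [AddCommGroup V] [DistribMulAction GQ V] : Prop :=
  ∃ H : Subalgebra ↥(GaloisRep.ratLocalizedAt ℓ) (V → Qb), AlphIsOrd H

variable {ℓ}
variable {V W : Type} [AddCommGroup V] [DistribMulAction GQ V] [AddCommGroup W]
  [DistribMulAction GQ W]

/-- the S19 / `IsFlatAt` existential -/
theorem AlphHasOrder.flat [Fintype V] (h : AlphHasOrder ℓ V) :
    ∃ (H' : Type) (_ : CommRing H') (_ : HopfAlgebra (GaloisRep.ratLocalizedAt ℓ) H'),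
      Module.Finite (GaloisRep.ratLocalizedAt ℓ) H' ∧ Module.Flat (GaloisRep.ratLocalizedAt ℓ) H' ∧
      Coalgebra.IsCocomm (GaloisRep.ratLocalizedAt ℓ) H' ∧
      ∃ e : WithConv (H' →ₐ[GaloisRep.ratLocalizedAt ℓ] AlgebraicClosure ℚ) ≃ V,
        (∀ f g, e (f * g) = e f + e g) ∧
        ∀ (σ : AlgebraicClosure ℚ ≃ₐ[ℚ] AlgebraicClosure ℚ)
          (f g : WithConv (H' →ₐ[GaloisRep.ratLocalizedAt ℓ] AlgebraicClosure ℚ)),
          (∀ h : H', g h = σ (f h)) → e g = σ • e f := by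
  obtain ⟨H, hH⟩ := h
  exact alph_flat_of_order_zl ℓ H hH.fg hH.eqv hH.sep hH.comul

theorem AlphHasOrder.of_injective (h : AlphHasOrder ℓ V) (φ : W →+ V)
    (hφ : Function.Injective φ) (hφσ : ∀ (σ : GQ) (w : W), φ (σ • w) = σ • φ w) :
    AlphHasOrder ℓ W := by
  obtain ⟨H, hH⟩ := h
  exact ⟨_, hH.of_injective φ hφ hφσ⟩

theorem AlphHasOrder.of_surjective [Fintype V] (h : AlphHasOrder ℓ V) (π : V →+ W)
    (hπ : Function.Surjective π) (hπσ : ∀ (σ : GQ) (v : V), π (σ • v) = σ • π v) :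
    AlphHasOrder ℓ W := by
  haveI : IsDiscreteValuationRing ↥(GaloisRep.ratLocalizedAt ℓ) :=
    Fermat.Agent.Igusa.zl_isDiscreteValuationRing ℓ
  obtain ⟨H, hH⟩ := h
  exact ⟨_, hH.of_surjective (R := ↥(GaloisRep.ratLocalizedAt ℓ)) (fun r => rfl) π hπ hπσ⟩

theorem AlphHasOrder.prod (h₁ : AlphHasOrder ℓ V) (h₂ : AlphHasOrder ℓ W) :
    AlphHasOrder ℓ (V × W) := by
  haveI : IsDiscreteValuationRing ↥(GaloisRep.ratLocalizedAt ℓ) :=
    Fermat.Agent.Igusa.zl_isDiscreteValuationRing ℓ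
  obtain ⟨H₁, hH₁⟩ := h₁
  obtain ⟨H₂, hH₂⟩ := h₂
  exact ⟨_, hH₁.prod (R := ↥(GaloisRep.ratLocalizedAt ℓ)) (fun r => rfl) hH₂⟩

end Zl

end Fermat.Agent.Alpha
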