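/-
ALPHA, package P1-K (helper1), part 1: **duality infrastructure**.

`V` a finite abelian group, `K` a field.  The pairing `⟨c, f⟩ = ∑ v, c v * f v` between the group
algebra `K[V]` (convolution; `AddMonoidAlgebra K V`, coefficient function `alphCo`) and the
function algebra `V → K`:

* `alphPair`, bilinearity, nondegeneracy (`alph_ext_pair`);
* `alph_exists_dual` : dual family of a basis of functions, with both expansions;
* `alphCo_mul`, `alphPair_mul` : pairing with a convolution product;
* characters `AlphIsChar`, the Fourier homomorphisms `alphFourier`, finiteness, separation and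
  spanning (for `K` algebraically closed of characteristic `0`), `alph_eq_zero_of_fourier`,
  `alph_isIntegral_of_fourier`.
-/
import Mathlib
import Fermat.Agent.Lib.Alpha.Hopf.Eqv

set_option autoImplicit false
set_option linter.unusedSectionVars false
set_option linter.unusedVariables false
set_option linter.style.haveILetI false

open scoped TensorProduct

namespace Fermat.Agent.Alpha

section Pair

variable {K V : Type} [CommRing K] [Fintype V]

/-- the standard pairing on `K^V` -/
def alphPair (c f : V → K) : K := ∑ v, c v * f v

theorem alphPair_def (c f : V → K) : alphPair c f = ∑ v, c v * f v := rfl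

theorem alphPair_comm (c f : V → K) : alphPair c f = alphPair f c :=
  Finset.sum_congr rfl fun v _ => mul_comm _ _

theorem alphPair_add_left (c c' f : V → K) : alphPair (c + c') f = alphPair c f + alphPair c' f := by
  simp only [alphPair, Pi.add_apply, add_mul, Finset.sum_add_distrib]

theorem alphPair_add_right (c f f' : V → K) : alphPair c (f + f') = alphPair c f + alphPair c f' := by
  simp only [alphPair, Pi.add_apply, mul_add, Finset.sum_add_distrib]

theorem alphPair_smul_left (a : K) (c f : V → K) : alphPair (a • c) f = a * alphPair c f := by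
  simp only [alphPair, Pi.smul_apply, smul_eq_mul, Finset.mul_sum, mul_assoc]

theorem alphPair_smul_right (a : K) (c f : V → K) : alphPair c (a • f) = a * alphPair c f := by
  rw [alphPair_comm, alphPair_smul_left, alphPair_comm]

theorem alphPair_zero_left (f : V → K) : alphPair (0 : V → K) f = 0 := by
  simp [alphPair]

theorem alphPair_zero_right (c : V → K) : alphPair c (0 : V → K) = 0 := by
  simp [alphPair]

theorem alphPair_sum_left {ι : Type} (s : Finset ι) (c : ι → V → K) (f : V → K) :
    alphPair (∑ i ∈ s, c i) f = ∑ i ∈ s, alphPair (c i) f := by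
  classical
  induction s using Finset.induction_on with
  | empty => simp [alphPair_zero_left]
  | insert a s ha ih => rw [Finset.sum_insert ha, Finset.sum_insert ha, alphPair_add_left, ih]

theorem alphPair_sum_right {ι : Type} (s : Finset ι) (c : V → K) (f : ι → V → K) :
    alphPair c (∑ i ∈ s, f i) = ∑ i ∈ s, alphPair c (f i) := by
  rw [alphPair_comm, alphPair_sum_left]
  exact Finset.sum_congr rfl fun i _ => alphPair_comm _ _

theorem alphPair_single_right [DecidableEq V] (c : V → K) (v : V) (a : K) :
    alphPair c (Pi.single v a) = c v * a := by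
  rw [alphPair, Finset.sum_eq_single v]
  · rw [Pi.single_eq_same]
  · intro w _ hw
    rw [Pi.single_eq_of_ne hw, mul_zero]
  · intro h
    exact absurd (Finset.mem_univ v) h

theorem alphPair_single_left [DecidableEq V] (f : V → K) (v : V) (a : K) :
    alphPair (Pi.single v a) f = a * f v := by
  rw [alphPair_comm, alphPair_single_right, mul_comm]

/-- nondegeneracy -/
theorem alph_ext_pair {c c' : V → K} (h : ∀ f, alphPair c f = alphPair c' f) : c = c' := by
  classical
  funext v
  have := h (Pi.single v 1)
  rwa [alphPair_single_right, alphPair_single_right, mul_one, mul_one] at this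

end Pair

section Dual

variable {K V : Type} [Field K] [Fintype V]

/-- **the dual family** of a basis of `K^V` with respect to `alphPair` -/
theorem alph_exists_dual {n : ℕ} (b : Fin n → (V → K)) (hli : LinearIndependent K b)
    (hsp : Submodule.span K (Set.range b) = ⊤) :
    ∃ u : Fin n → (V → K), (∀ i j, alphPair (u i) (b j) = if i = j then 1 else 0) ∧
      (∀ f : V → K, f = ∑ i, alphPair (u i) f • b i) ∧
      (∀ c : V → K, c = ∑ i, alphPair c (b i) • u i) := by
  classical
  set B := Module.Basis.mk hli (le_of_eq hsp.symm) with hB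
  have hBb : ∀ i, B i = b i := fun i => by rw [hB, Module.Basis.mk_apply]
  set u : Fin n → (V → K) := fun i v => B.repr (Pi.single v 1) i with hu
  have key : ∀ (i : Fin n) (f : V → K), alphPair (u i) f = B.repr f i := by
    intro i f
    have h1 : f = ∑ v, f v • (Pi.single v 1 : V → K) := by
      funext w
      rw [Finset.sum_apply, Finset.sum_eq_single w]
      · rw [Pi.smul_apply, Pi.single_eq_same, smul_eq_mul, mul_one]
      · intro v _ hv
        rw [Pi.smul_apply, Pi.single_eq_of_ne (Ne.symm hv), smul_zero]
      · intro h
        exact absurd (Finset.mem_univ w) h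
    conv_rhs => rw [h1]
    rw [map_sum, Finsupp.coe_finsetSum, Finset.sum_apply, alphPair]
    refine Finset.sum_congr rfl fun v _ => ?_
    rw [map_smul, Finsupp.smul_apply, smul_eq_mul, mul_comm]
  have h2 : ∀ f : V → K, f = ∑ i, alphPair (u i) f • b i := by
    intro f
    conv_lhs => rw [← B.sum_repr f]
    exact Finset.sum_congr rfl fun i _ => by rw [key, hBb]
  refine ⟨u, ?_, h2, ?_⟩
  · intro i j
    rw [key, ← hBb j, B.repr_self, Finsupp.single_apply]
    by_cases hij : i = j
    · rw [if_pos hij, if_pos hij.symm]
    · rw [if_neg hij, if_neg (Ne.symm hij)]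
  · intro c
    apply alph_ext_pair
    intro f
    rw [alphPair_sum_left]
    conv_lhs => rw [h2 f, alphPair_sum_right]
    refine Finset.sum_congr rfl fun i _ => ?_
    rw [alphPair_smul_right, alphPair_smul_left, mul_comm]

/-- a family dual to a family is linearly independent -/
theorem alph_indep_of_dual {n : ℕ} (b u : Fin n → (V → K))
    (h : ∀ i j, alphPair (u i) (b j) = if i = j then 1 else 0) : LinearIndependent K u := by
  classical
  rw [Fintype.linearIndependent_iff]
  intro a ha j
  have h1 : alphPair (∑ i, a i • u i) (b j) = a j := by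
    rw [alphPair_sum_left, Finset.sum_eq_single j]
    · rw [alphPair_smul_left, h, if_pos rfl, mul_one]
    · intro i _ hi
      rw [alphPair_smul_left, h, if_neg hi, mul_zero]
    · intro hj
      exact absurd (Finset.mem_univ j) hj
  rw [ha, alphPair_zero_left] at h1
  exact h1.symm

end Dual

section Conv

open AddMonoidAlgebra

variable {K V : Type} [CommRing K] [Fintype V] [AddCommGroup V]

/-- the coefficient function of an element of the group algebra -/
def alphCo (c : AddMonoidAlgebra K V) : V → K := fun v => c.coeff v

theorem alphCo_apply (c : AddMonoidAlgebra K V) (v : V) : alphCo c v = c.coeff v := rfl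

theorem alphCo_injective : Function.Injective (alphCo (K := K) (V := V)) := by
  intro c d h
  apply AddMonoidAlgebra.ext
  apply Finsupp.ext
  intro v
  exact congrFun h v

theorem alphCo_add (c d : AddMonoidAlgebra K V) : alphCo (c + d) = alphCo c + alphCo d := by
  funext v
  simp [alphCo]

theorem alphCo_zero : alphCo (0 : AddMonoidAlgebra K V) = 0 := by
  funext v
  simp [alphCo]

theorem alphCo_smul (a : K) (c : AddMonoidAlgebra K V) : alphCo (a • c) = a • alphCo c := by
  funext v
  simp [alphCo]

theorem alphCo_sum {ι : Type} (s : Finset ι) (c : ι → AddMonoidAlgebra K V) :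
    alphCo (∑ i ∈ s, c i) = ∑ i ∈ s, alphCo (c i) := by
  classical
  induction s using Finset.induction_on with
  | empty => simp [alphCo_zero]
  | insert a s ha ih => rw [Finset.sum_insert ha, Finset.sum_insert ha, alphCo_add, ih]

/-- the element of the group algebra with a given coefficient function -/
noncomputable def alphOf (f : V → K) : AddMonoidAlgebra K V :=
  AddMonoidAlgebra.ofCoeff (Finsupp.equivFunOnFinite.symm f)

@[simp] theorem alphCo_alphOf (f : V → K) : alphCo (alphOf f) = f := by
  funext v
  simp [alphCo, alphOf]

@[simp] theorem alphOf_alphCo (c : AddMonoidAlgebra K V) : alphOf (alphCo c) = c :=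
  alphCo_injective (alphCo_alphOf _)

theorem alphCo_single [DecidableEq V] (v : V) (a : K) :
    alphCo (AddMonoidAlgebra.single v a) = Pi.single v a := by
  funext w
  rw [alphCo_apply, AddMonoidAlgebra.coeff_single, Finsupp.single_apply]
  by_cases h : v = w
  · subst h
    rw [if_pos rfl, Pi.single_eq_same]
  · rw [if_neg h, Pi.single_eq_of_ne (Ne.symm h)]

theorem alphCo_one [DecidableEq V] : alphCo (1 : AddMonoidAlgebra K V) = Pi.single 0 1 := by
  rw [AddMonoidAlgebra.one_def, alphCo_single]

/-- **the convolution formula** -/
theorem alphCo_mul (c d : AddMonoidAlgebra K V) (v : V) :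
    alphCo (c * d) v = ∑ x, alphCo c x * alphCo d (v - x) := by
  rw [alphCo_apply, AddMonoidAlgebra.coeff_mul_apply_left, Finsupp.sum_fintype]
  · refine Finset.sum_congr rfl fun x _ => ?_
    rw [neg_add_eq_sub]
    rfl
  · intro x
    exact zero_mul _

/-- **pairing with a convolution product** -/
theorem alphPair_mul (c d : AddMonoidAlgebra K V) (f : V → K) :
    alphPair (alphCo (c * d)) f = ∑ x, ∑ y, alphCo c x * alphCo d y * f (x + y) := by
  rw [alphPair]
  simp_rw [alphCo_mul, Finset.sum_mul]
  rw [Finset.sum_comm]
  refine Finset.sum_congr rfl fun x _ => ?_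
  refine Fintype.sum_equiv (Equiv.subRight x) _ _ fun v => ?_
  simp only [Equiv.subRight_apply, add_sub_cancel]

end Conv

section Char

open AddMonoidAlgebra

variable {K V : Type} [Field K] [Fintype V] [AddCommGroup V]

/-- characters `V → K` -/
def AlphIsChar (χ : V → K) : Prop := χ 0 = 1 ∧ ∀ x y, χ (x + y) = χ x * χ y

theorem alphIsChar_one : AlphIsChar (1 : V → K) := ⟨rfl, fun _ _ => (mul_one _).symm⟩

theorem AlphIsChar.mul {χ χ' : V → K} (h : AlphIsChar χ) (h' : AlphIsChar χ') :
    AlphIsChar (χ * χ') := by
  refine ⟨by rw [Pi.mul_apply, h.1, h'.1, mul_one], fun x y => ?_⟩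
  rw [Pi.mul_apply, Pi.mul_apply, Pi.mul_apply, h.2, h'.2]
  ring

theorem AlphIsChar.pow_card {χ : V → K} (h : AlphIsChar χ) (x : V) :
    χ x ^ Fintype.card V = 1 := by
  have h1 : ∀ n : ℕ, χ (n • x) = χ x ^ n := by
    intro n
    induction n with
    | zero => rw [zero_smul, pow_zero, h.1]
    | succ n ih => rw [succ_nsmul, h.2, ih, pow_succ]
  rw [← h1, card_nsmul_eq_zero, h.1]

/-- multiplicativity of the Fourier coefficients -/
theorem AlphIsChar.pair_mul {χ : V → K} (h : AlphIsChar χ) (c d : AddMonoidAlgebra K V) :
    alphPair (alphCo (c * d)) χ = alphPair (alphCo c) χ * alphPair (alphCo d) χ := by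
  rw [alphPair_mul, alphPair, alphPair, Finset.sum_mul_sum]
  refine Finset.sum_congr rfl fun x _ => Finset.sum_congr rfl fun y _ => ?_
  rw [h.2]
  ring

/-- **the Fourier homomorphism** attached to a character -/
noncomputable def alphFourier (χ : V → K) (h : AlphIsChar χ) : AddMonoidAlgebra K V →ₐ[K] K where
  toFun c := alphPair (alphCo c) χ
  map_one' := by
    classical
    rw [alphCo_one, alphPair_single_left, h.1, mul_one]
  map_mul' c d := h.pair_mul c d
  map_zero' := by rw [alphCo_zero, alphPair_zero_left]
  map_add' c d := by rw [alphCo_add, alphPair_add_left]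
  commutes' a := by
    classical
    rw [AddMonoidAlgebra.coe_algebraMap, Function.comp_apply, alphCo_single, alphPair_single_left,
      h.1, mul_one]

@[simp] theorem alphFourier_apply (χ : V → K) (h : AlphIsChar χ) (c : AddMonoidAlgebra K V) :
    alphFourier χ h c = alphPair (alphCo c) χ := rfl

/-- there are finitely many characters -/
theorem alphIsChar_finite : {χ : V → K | AlphIsChar χ}.Finite := by
  classical
  have hpos : 0 < Fintype.card V := Fintype.card_pos
  have h1 : {f : V → K | ∀ v, f v ∈ ((Polynomial.nthRootsFinset (Fintype.card V) (1 : K) : Finset K) :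
      Set K)}.Finite := Set.Finite.pi' fun v => Finset.finite_toSet _
  refine h1.subset fun χ hχ v => ?_
  rw [Finset.mem_coe, Polynomial.mem_nthRootsFinset hpos]
  exact hχ.pow_card v

variable [IsAlgClosed K] [CharZero K]

/-- characters separate points -/
theorem alph_char_sep (x y : V) (hxy : x ≠ y) : ∃ χ : V → K, AlphIsChar χ ∧ χ x ≠ χ y := by
  classical
  haveI : NeZero (Monoid.exponent (Multiplicative V)) := ⟨Monoid.exponent_ne_zero_of_finite⟩
  haveI : NeZero ((Monoid.exponent (Multiplicative V) : ℕ) : K) := NeZero.charZero
  have hne : Multiplicative.ofAdd (x - y) ≠ (1 : Multiplicative V) := by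
    intro h
    have : x - y = 0 := by
      have := congrArg Multiplicative.toAdd h
      simpa using this
    exact hxy (sub_eq_zero.mp this)
  obtain ⟨φ, hφ⟩ := CommGroup.exists_apply_ne_one_of_hasEnoughRootsOfUnity (Multiplicative V) K hne
  refine ⟨fun v => ((φ (Multiplicative.ofAdd v) : Kˣ) : K), ⟨?_, ?_⟩, ?_⟩
  · show ((φ (Multiplicative.ofAdd 0) : Kˣ) : K) = 1
    rw [ofAdd_zero, map_one, Units.val_one]
  · intro a b
    show ((φ (Multiplicative.ofAdd (a + b)) : Kˣ) : K) = _
    rw [ofAdd_add, map_mul, Units.val_mul]
  · intro h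
    apply hφ
    have h1 : Multiplicative.ofAdd (x - y) = Multiplicative.ofAdd x * (Multiplicative.ofAdd y)⁻¹ := by
      rw [ofAdd_sub, div_eq_mul_inv]
    rw [h1, map_mul, map_inv]
    have h2 : φ (Multiplicative.ofAdd x) = φ (Multiplicative.ofAdd y) := Units.ext h
    rw [h2, mul_inv_cancel]

/-- characters span the function algebra -/
theorem alph_char_span : Submodule.span K {χ : V → K | AlphIsChar χ} = ⊤ := by
  have h1 : Algebra.adjoin K {χ : V → K | AlphIsChar χ} = ⊤ := by
    apply alph_subalgebra_eq_top
    intro x y hxy
    obtain ⟨χ, hχ, hχxy⟩ := alph_char_sep (K := K) x y hxy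
    exact ⟨χ, Algebra.subset_adjoin hχ, hχxy⟩
  have h2 := Algebra.adjoin_eq_span K {χ : V → K | AlphIsChar χ}
  have h3 : (Submonoid.closure {χ : V → K | AlphIsChar χ} : Set (V → K))
      = {χ : V → K | AlphIsChar χ} := by
    let S : Submonoid (V → K) :=
      { carrier := {χ : V → K | AlphIsChar χ}
        mul_mem' := fun h h' => h.mul h'
        one_mem' := alphIsChar_one }
    have : Submonoid.closure (S : Set (V → K)) = S := Submonoid.closure_eq S
    exact congrArg (fun T : Submonoid (V → K) => (T : Set (V → K))) this
  rw [h3, h1] at h2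
  rw [← h2]
  rfl

/-- the Fourier transform is injective -/
theorem alph_eq_zero_of_fourier (c : AddMonoidAlgebra K V)
    (h : ∀ χ : V → K, AlphIsChar χ → alphPair (alphCo c) χ = 0) : c = 0 := by
  apply alphCo_injective
  rw [alphCo_zero]
  apply alph_ext_pair
  intro f
  rw [alphPair_zero_left]
  have hf : f ∈ Submodule.span K {χ : V → K | AlphIsChar χ} := by
    rw [alph_char_span]
    exact Submodule.mem_top
  induction hf using Submodule.span_induction with
  | mem χ hχ => exact h χ hχ
  | zero => exact alphPair_zero_right _
  | add f g _ _ ihf ihg => rw [alphPair_add_right, ihf, ihg, add_zero]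
  | smul a f _ ihf => rw [alphPair_smul_right, ihf, mul_zero]

/-- **integrality may be tested on the Fourier coefficients** -/
theorem alph_isIntegral_of_fourier {R : Type} [CommRing R] [Algebra R K]
    (c : AddMonoidAlgebra K V)
    (h : ∀ χ : V → K, AlphIsChar χ → IsIntegral R (alphPair (alphCo c) χ)) : IsIntegral R c := by
  classical
  set S := (alphIsChar_finite (K := K) (V := V)).toFinset with hS
  have hS' : ∀ χ : V → K, χ ∈ S ↔ AlphIsChar χ := fun χ => by
    rw [hS, Set.Finite.mem_toFinset]
    rfl
  choose! P hP hP0 using h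
  have hP0' : ∀ χ : V → K, AlphIsChar χ → Polynomial.aeval (alphPair (alphCo c) χ) (P χ) = 0 :=
    fun χ hχ => by
      rw [Polynomial.aeval_def]
      exact hP0 χ hχ
  refine ⟨∏ χ ∈ S, P χ, Polynomial.monic_prod_of_monic _ _ fun χ hχ => hP χ ((hS' χ).mp hχ), ?_⟩
  rw [← Polynomial.aeval_def]
  apply alph_eq_zero_of_fourier
  intro χ hχ
  have h1 : alphPair (alphCo (Polynomial.aeval c (∏ χ ∈ S, P χ))) χ
      = ((alphFourier χ hχ).restrictScalars R) (Polynomial.aeval c (∏ χ ∈ S, P χ)) := rfl
  rw [h1, ← Polynomial.aeval_algHom_apply, map_prod]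
  refine Finset.prod_eq_zero ((hS' χ).mpr hχ) ?_
  exact hP0' χ hχ

end Char

end Fermat.Agent.Alpha
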