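/-
ALPHA, package P1-K (helper1), part 3: **the dual of a finite convolution order is a Hopf order**
(pure algebra over any field `K`).

`Mo ≤ K^V` an `R`-order with `K`-basis `b` and dual family `u ⊂ K[V]`; `B ≤ K[V]` an `R`-subalgebra
(convolution) containing the `u i`, which is a good `R`-lattice (`R`-span of a `K`-independent
family `β`).  Then the `R`-algebra `H` generated by `B^∨ = {f | ⟨B, f⟩ ⊆ R}` is contained in `Mo`,
separates points and is stable under the comultiplication.
-/
import Mathlib
import Fermat.Agent.Lib.Alpha.Hopf.Dec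
import Fermat.Agent.Lib.Alpha.Hopf.Pair

set_option autoImplicit false
set_option linter.unusedSectionVars false
set_option linter.unusedVariables false
set_option linter.style.haveILetI false

namespace Fermat.Agent.Alpha

section DualOrd

variable {R K V : Type} [CommRing R] [Field K] [Algebra R K] [Fintype V] [AddCommGroup V]

/-- the coefficient map, `R`-linear -/
def alphCoR (R : Type) {K V : Type} [CommRing R] [Field K] [Algebra R K] [Fintype V]
    [AddCommGroup V] : AddMonoidAlgebra K V →ₗ[R] (V → K) where
  toFun := alphCo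
  map_add' := alphCo_add
  map_smul' r c := by
    funext v
    simp [alphCo]

@[simp] theorem alphCoR_apply (c : AddMonoidAlgebra K V) : alphCoR R c = alphCo c := rfl

/-- the dual of a subalgebra of the group algebra -/
def alphDualSet (B : Subalgebra R (AddMonoidAlgebra K V)) : Set (V → K) :=
  {f | ∀ c ∈ B, alphPair (alphCo c) f ∈ (algebraMap R K).range}

theorem alphPair_span_mem {m : ℕ} (β : Fin m → (V → K)) {c : V → K}
    (hc : c ∈ Submodule.span R (Set.range β)) (f : V → K)
    (hf : ∀ l, alphPair (β l) f ∈ (algebraMap R K).range) :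
    alphPair c f ∈ (algebraMap R K).range := by
  obtain ⟨r, hr⟩ := (Submodule.mem_span_range_iff_exists_fun R).mp hc
  rw [← hr, alphPair_sum_left]
  refine Subring.sum_mem _ fun l _ => ?_
  have : r l • β l = (algebraMap R K (r l)) • β l := (algebraMap_smul K (r l) (β l)).symm
  rw [this, alphPair_smul_left]
  exact Subring.mul_mem _ ⟨r l, rfl⟩ (hf l)

/-- **the dual of a finite convolution order** -/
theorem alph_dualOrd (Mo : Subalgebra R (V → K)) {n : ℕ} (b u : Fin n → (V → K))
    (hMo : Mo.toSubmodule = Submodule.span R (Set.range b))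
    (hexp : ∀ f : V → K, f = ∑ i, alphPair (u i) f • b i)
    (hexp' : ∀ c : V → K, c = ∑ i, alphPair c (b i) • u i)
    (B : Subalgebra R (AddMonoidAlgebra K V)) (hBu : ∀ i, alphOf (u i) ∈ B)
    {m : ℕ} (β : Fin m → (V → K)) (hβ : LinearIndependent K β)
    (hBβ : B.toSubmodule.map (alphCoR R) = Submodule.span R (Set.range β)) :
    ∃ H : Subalgebra R (V → K), H ≤ Mo ∧ (∀ x y : V, x ≠ y → ∃ f ∈ H, f x ≠ f y) ∧
      ∀ f ∈ H, AlphDec H.toSubmodule H.toSubmodule (fun x y => f (x + y)) := by
  classical
  set S := alphDualSet B with hS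
  have hSH : S ⊆ (Algebra.adjoin R S : Set (V → K)) := Algebra.subset_adjoin
  -- membership in the coefficient lattice
  have hmemB : ∀ c ∈ B, alphCo c ∈ Submodule.span R (Set.range β) := by
    intro c hc
    rw [← hBβ]
    exact ⟨c, hc, rfl⟩
  have hβB : ∀ l, alphOf (β l) ∈ B := by
    intro l
    have h1 : β l ∈ B.toSubmodule.map (alphCoR R) := by
      rw [hBβ]
      exact Submodule.subset_span ⟨l, rfl⟩
    obtain ⟨c, hc, hcβ⟩ := h1
    have : alphOf (β l) = c := by
      rw [← hcβ]
      exact alphOf_alphCo c
    rw [this]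
    exact hc
  -- (a) the dual set lies in `Mo`
  have hSMo : S ⊆ (Mo : Set (V → K)) := by
    intro f hf
    have h1 : ∀ i, alphPair (u i) f ∈ (algebraMap R K).range := by
      intro i
      have := hf (alphOf (u i)) (hBu i)
      rwa [alphCo_alphOf] at this
    choose r hr using h1
    have h2 : f = ∑ i, r i • b i := by
      conv_lhs => rw [hexp f]
      refine Finset.sum_congr rfl fun i _ => ?_
      rw [← hr i]
      exact algebraMap_smul K (r i) (b i)
    have h3 : f ∈ Mo.toSubmodule := by
      rw [hMo, h2]
      exact Submodule.sum_mem _ fun i _ => Submodule.smul_mem _ _ (Submodule.subset_span ⟨i, rfl⟩)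
    exact h3
  -- (b) `β` spans
  have hβsp : Submodule.span K (Set.range β) = ⊤ := by
    rw [eq_top_iff]
    intro c _
    rw [hexp' c]
    refine Submodule.sum_mem _ fun i _ => Submodule.smul_mem _ _ ?_
    have h1 : u i ∈ Submodule.span R (Set.range β) := by
      have := hmemB (alphOf (u i)) (hBu i)
      rwa [alphCo_alphOf] at this
    obtain ⟨r, hr⟩ := (Submodule.mem_span_range_iff_exists_fun R).mp h1
    rw [← hr]
    refine Submodule.sum_mem _ fun l _ => ?_
    have : r l • β l = (algebraMap R K (r l)) • β l := (algebraMap_smul K (r l) (β l)).symm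
    rw [this]
    exact Submodule.smul_mem _ _ (Submodule.subset_span ⟨l, rfl⟩)
  -- (c) the dual family of `β`
  obtain ⟨h, hhβ, -, hexpβ⟩ := alph_exists_dual β hβ hβsp
  -- (d) `h k` lies in the dual set
  have hhS : ∀ k, h k ∈ S := by
    intro k c hc
    refine alphPair_span_mem β (hmemB c hc) (h k) fun l => ?_
    rw [alphPair_comm, hhβ]
    by_cases hkl : k = l
    · rw [if_pos hkl]
      exact ⟨1, map_one _⟩
    · rw [if_neg hkl]
      exact ⟨0, map_zero _⟩
  refine ⟨Algebra.adjoin R S, Algebra.adjoin_le hSMo, ?_, ?_⟩
  · -- (e) separation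
    intro x y hxy
    by_contra hcon
    push Not at hcon
    have h1 : ∀ k, h k x = h k y := fun k => hcon (h k) (hSH (hhS k))
    have h2 : ∀ f : V → K, f x = f y := by
      intro f
      rw [hexpβ f]
      simp only [Finset.sum_apply, Pi.smul_apply, h1]
    have h3 := h2 (Pi.single x 1)
    rw [Pi.single_eq_same, Pi.single_eq_of_ne (Ne.symm hxy)] at h3
    exact one_ne_zero h3
  · -- (f), (g) comultiplication
    apply alphDec_adjoin S (Algebra.adjoin R S) le_rfl
    intro f hf
    refine ⟨m, h, fun k => fun y => alphPair (β k) (fun v => f (v + y)), fun k => hSH (hhS k),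
      fun k => hSH ?_, fun x y => ?_⟩
    · -- `g k` lies in the dual set
      intro c hc
      have h1 : alphPair (alphCo c) (fun y => alphPair (β k) (fun v => f (v + y)))
          = alphPair (alphCo (alphOf (β k) * c)) f := by
        rw [alphPair_mul, alphCo_alphOf, alphPair]
        simp only [alphPair, Finset.mul_sum]
        rw [Finset.sum_comm]
        refine Finset.sum_congr rfl fun v _ => Finset.sum_congr rfl fun y _ => ?_
        ring
      rw [h1]
      exact hf _ (B.mul_mem (hβB k) hc)
    · -- the expansion
      have h1 := congrFun (hexpβ (fun v => f (v + y))) x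
      simp only [Finset.sum_apply, Pi.smul_apply, smul_eq_mul] at h1
      show f (x + y) = _
      rw [h1]
      refine Finset.sum_congr rfl fun k _ => ?_
      rw [alphPair_comm, mul_comm]

end DualOrd

end Fermat.Agent.Alpha
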