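/-
ALPHA, package P1-K (helper1), part 2: **`ℤ_(ℓ)` and valuation subrings of `ℚ̄` over `ℓ`**.

* `alph_zl_mem` : `ℤ_(ℓ) ⊆ 𝒱`;
* `alph_rat_mem_zl` : `ℚ ∩ 𝒱 ⊆ ℤ_(ℓ)`;
* `alph_isIntegral_of_conj_mem` : an element of `ℚ̄` all of whose conjugates lie in `𝒱` is integral
  over `ℤ_(ℓ)`.
-/
import Mathlib
import Fermat.Agent.Lib.Alpha.Hopf.Zl

set_option autoImplicit false
set_option linter.unusedSectionVars false
set_option linter.unusedVariables false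
set_option linter.style.haveILetI false

namespace Fermat.Agent.Alpha

local notation "Qb" => AlgebraicClosure ℚ
local notation "GQ" => (AlgebraicClosure ℚ ≃ₐ[ℚ] AlgebraicClosure ℚ)

variable {ℓ : ℕ} (𝒱 : ValuationSubring Qb) (h𝒱 : 𝒱.LiesOverPrime ℓ)

include h𝒱 in
/-- an integer prime to `ℓ` is not a nonunit of `𝒱` -/
theorem alph_int_not_mem_nonunits {z : ℤ} (hz : IsCoprime z (ℓ : ℤ)) :
    ((z : ℤ) : Qb) ∉ 𝒱.nonunits := by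
  intro h
  obtain ⟨a, b, hab⟩ := hz
  have hz𝒱 : ((z : ℤ) : Qb) ∈ 𝒱 := intCast_mem 𝒱 z
  have hℓ𝒱 : ((ℓ : ℕ) : Qb) ∈ 𝒱 := natCast_mem 𝒱 ℓ
  have h1 : (⟨((z : ℤ) : Qb), hz𝒱⟩ : ↥𝒱) ∈ IsLocalRing.maximalIdeal ↥𝒱 :=
    ValuationSubring.coe_mem_nonunits_iff.mp h
  have h2 : (⟨((ℓ : ℕ) : Qb), hℓ𝒱⟩ : ↥𝒱) ∈ IsLocalRing.maximalIdeal ↥𝒱 :=
    ValuationSubring.coe_mem_nonunits_iff.mp h𝒱
  have h3 : (1 : ↥𝒱) ∈ IsLocalRing.maximalIdeal ↥𝒱 := by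
    have h4 : (1 : ↥𝒱) = (a : ↥𝒱) * ⟨((z : ℤ) : Qb), hz𝒱⟩ + (b : ↥𝒱) * ⟨((ℓ : ℕ) : Qb), hℓ𝒱⟩ := by
      apply Subtype.ext
      have := congrArg (fun t : ℤ => (t : Qb)) hab
      simp only [Int.cast_add, Int.cast_mul, Int.cast_natCast, Int.cast_one] at this
      push_cast
      exact this.symm
    rw [h4]
    exact Ideal.add_mem _ (Ideal.mul_mem_left _ _ h1) (Ideal.mul_mem_left _ _ h2)
  exact (Ideal.ne_top_iff_one _).mp (IsLocalRing.maximalIdeal.isMaximal ↥𝒱).ne_top h3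

include h𝒱 in
/-- `ℤ_(ℓ) ⊆ 𝒱` -/
theorem alph_rat_mem_of_den_coprime (q : ℚ) (hq : q.den.Coprime ℓ) :
    algebraMap ℚ Qb q ∈ 𝒱 := by
  have hcop : IsCoprime ((q.den : ℕ) : ℤ) (ℓ : ℤ) := Nat.isCoprime_iff_coprime.mpr hq
  have h1 := alph_int_not_mem_nonunits 𝒱 h𝒱 hcop
  have hden : (((q.den : ℕ) : ℤ) : Qb) ∈ 𝒱 := intCast_mem 𝒱 _
  have hden0 : (((q.den : ℕ) : ℤ) : Qb) ≠ 0 := by
    have : (q.den : ℤ) ≠ 0 := by exact_mod_cast q.den_ne_zero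
    exact_mod_cast this
  have hinv : (((q.den : ℕ) : ℤ) : Qb)⁻¹ ∈ 𝒱 := by
    rw [ValuationSubring.mem_nonunits_iff_or] at h1
    push Not at h1
    exact h1.2
  have h2 : algebraMap ℚ Qb q = ((q.num : ℤ) : Qb) * (((q.den : ℕ) : ℤ) : Qb)⁻¹ := by
    conv_lhs => rw [← Rat.num_div_den q]
    rw [map_div₀, div_eq_mul_inv]
    simp
  rw [h2]
  exact 𝒱.mul_mem _ _ (intCast_mem 𝒱 _) hinv

include h𝒱 in
theorem alph_zl_mem (r : ↥(GaloisRep.ratLocalizedAt ℓ)) :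
    algebraMap ↥(GaloisRep.ratLocalizedAt ℓ) Qb r ∈ 𝒱 :=
  alph_rat_mem_of_den_coprime 𝒱 h𝒱 r.1 r.2

include h𝒱 in
/-- `ℚ ∩ 𝒱 ⊆ ℤ_(ℓ)` -/
theorem alph_rat_mem_zl (hℓ : ℓ.Prime) (q : ℚ) (hq : algebraMap ℚ Qb q ∈ 𝒱) :
    q ∈ GaloisRep.ratLocalizedAt ℓ := by
  show q.den.Coprime ℓ
  by_contra hcon
  have hdvd : ℓ ∣ q.den := by
    by_contra h
    exact hcon ((Nat.Prime.coprime_iff_not_dvd hℓ).mpr h).symm
  obtain ⟨d, hd⟩ := hdvd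
  -- the numerator is prime to `ℓ`
  have hnum : IsCoprime q.num (ℓ : ℤ) := by
    have h1 : Nat.Coprime q.num.natAbs q.den := q.reduced
    have h2 : Nat.Coprime q.num.natAbs ℓ := Nat.Coprime.coprime_dvd_right ⟨d, hd⟩ h1
    rw [Int.isCoprime_iff_gcd_eq_one]
    exact h2
  apply alph_int_not_mem_nonunits 𝒱 h𝒱 hnum
  -- but `num = q * d * ℓ`
  have h3 : ((q.num : ℤ) : Qb) = (algebraMap ℚ Qb q * ((d : ℕ) : Qb)) * ((ℓ : ℕ) : Qb) := by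
    have h4 : (q.num : ℚ) = q * ((d : ℕ) : ℚ) * ((ℓ : ℕ) : ℚ) := by
      have h5 : (q.den : ℚ) = ((ℓ : ℕ) : ℚ) * ((d : ℕ) : ℚ) := by
        rw [hd]
        push_cast
        ring
      have h6 := Rat.mul_den_eq_num q
      rw [← h6, h5]
      ring
    have := congrArg (algebraMap ℚ Qb) h4
    simpa using this
  have hqd : algebraMap ℚ Qb q * ((d : ℕ) : Qb) ∈ 𝒱 := 𝒱.mul_mem _ _ hq (natCast_mem 𝒱 d)
  have hℓ𝒱 : ((ℓ : ℕ) : Qb) ∈ 𝒱 := natCast_mem 𝒱 ℓ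
  have h2 : (⟨((ℓ : ℕ) : Qb), hℓ𝒱⟩ : ↥𝒱) ∈ IsLocalRing.maximalIdeal ↥𝒱 :=
    ValuationSubring.coe_mem_nonunits_iff.mp h𝒱
  have h7 : (⟨_, hqd⟩ : ↥𝒱) * ⟨((ℓ : ℕ) : Qb), hℓ𝒱⟩ ∈ IsLocalRing.maximalIdeal ↥𝒱 :=
    Ideal.mul_mem_left _ _ h2
  rw [h3]
  exact ValuationSubring.coe_mem_nonunits_iff.mpr h7

include h𝒱 in
/-- **an element all of whose conjugates lie in `𝒱` is integral over `ℤ_(ℓ)`** -/
theorem alph_isIntegral_of_conj_mem (hℓ : ℓ.Prime) (x : Qb) (hx : ∀ σ : GQ, σ x ∈ 𝒱) :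
    IsIntegral ↥(GaloisRep.ratLocalizedAt ℓ) x := by
  classical
  haveI : Normal ℚ Qb := alph_isGalois_qbar.to_normal
  have halg : IsAlgebraic ℚ x := Algebra.IsAlgebraic.isAlgebraic x
  set P := minpoly ℚ x with hP
  have hPm : P.Monic := minpoly.monic halg.isIntegral
  set Q := P.map (algebraMap ℚ Qb) with hQ
  have hQm : Q.Monic := hPm.map _
  have hsplit : Q.Splits := IsAlgClosed.splits Q
  have hroots : ∀ r ∈ Q.roots, r ∈ 𝒱 := by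
    intro r hr
    have h1 : Polynomial.aeval r P = 0 := by
      have := (Polynomial.mem_roots hQm.ne_zero).mp hr
      rwa [Polynomial.IsRoot.def, hQ, Polynomial.eval_map_algebraMap] at this
    obtain ⟨σ, hσ⟩ := minpoly.exists_algEquiv_of_root' halg h1
    rw [← hσ]
    exact hx σ
  -- the coefficients of `Q` lie in `𝒱`
  have hQlift : Q ∈ Polynomial.liftsRing (𝒱.subtype) := by
    rw [hsplit.eq_prod_roots_of_monic hQm]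
    refine Subring.multiset_prod_mem _ _ ?_
    intro f hf
    obtain ⟨r, hr, rfl⟩ := Multiset.mem_map.mp hf
    refine Subring.sub_mem _ ?_ ?_
    · exact Polynomial.X_mem_lifts _
    · exact Polynomial.C'_mem_lifts ⟨⟨r, hroots r hr⟩, rfl⟩
  have hcoeff : ∀ n, P.coeff n ∈ GaloisRep.ratLocalizedAt ℓ := by
    intro n
    apply alph_rat_mem_zl 𝒱 h𝒱 hℓ
    have h1 : Q.coeff n ∈ Set.range 𝒱.subtype :=
      (Polynomial.lifts_iff_coeff_lifts Q).mp hQlift n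
    obtain ⟨y, hy⟩ := h1
    rw [hQ, Polynomial.coeff_map] at hy
    rw [← hy]
    exact y.2
  -- descend `P` to `ℤ_(ℓ)`
  have hPlift : P ∈ Polynomial.lifts (algebraMap ↥(GaloisRep.ratLocalizedAt ℓ) ℚ) := by
    rw [Polynomial.lifts_iff_coeff_lifts]
    intro n
    exact ⟨⟨P.coeff n, hcoeff n⟩, rfl⟩
  obtain ⟨P', hP', -, hP'm⟩ := Polynomial.lifts_and_degree_eq_and_monic hPlift hPm
  refine ⟨P', hP'm, ?_⟩
  have h2 : algebraMap ↥(GaloisRep.ratLocalizedAt ℓ) Qb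
      = (algebraMap ℚ Qb).comp (algebraMap ↥(GaloisRep.ratLocalizedAt ℓ) ℚ) :=
    RingHom.ext fun r => rfl
  rw [h2, ← Polynomial.eval₂_map, hP', ← Polynomial.aeval_def]
  exact minpoly.aeval ℚ x

end Fermat.Agent.Alpha
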