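/-
ALPHA, package P1-K (helper1), part 4: **criterion (K)**.  If every character `χ : V → ℚ̄ˣ` of the
finite `G_ℚ`-module `V` lies in the `𝒱`-span of the `G_ℚ`-equivariant integral functions
(`𝒱` a valuation subring of `ℚ̄` over `ℓ`), then `V` has a Hopf order over `ℤ_(ℓ)`.

* `alph_dual_eqv` : the dual family of an equivariant basis is equivariant;
* `alphEqvConv` : equivariant elements of the group algebra form a subalgebra;
* `alph_order_of_dual_integral` : the general statement over a PID `R ⊂ ℚ`;
* `alph_order_of_char` : criterion (K) over `ℤ_(ℓ)`.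
-/
import Mathlib
import Fermat.Agent.Lib.Alpha.Hopf.DualOrd
import Fermat.Agent.Lib.Alpha.Hopf.Closure
import Fermat.Agent.Lib.Alpha.Hopf.IntVal

set_option autoImplicit false
set_option linter.unusedSectionVars false
set_option linter.unusedVariables false
set_option linter.style.haveILetI false

namespace Fermat.Agent.Alpha

local notation "Qb" => AlgebraicClosure ℚ
local notation "GQ" => (AlgebraicClosure ℚ ≃ₐ[ℚ] AlgebraicClosure ℚ)

section SpanTop

variable {R K X : Type} [CommRing R] [Field K] [Algebra R K] [Fintype X]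

/-- an `R`-basis of a separating order spans `K^X` over `K` -/
theorem alph_span_basis_eq_top (H : Subalgebra R (X → K))
    (hsep : ∀ x y : X, x ≠ y → ∃ f ∈ H, f x ≠ f y) {n : ℕ} (b : Fin n → (X → K))
    (hsp : H.toSubmodule = Submodule.span R (Set.range b)) :
    Submodule.span K (Set.range b) = ⊤ := by
  have h1 : Algebra.adjoin K ((H : Set (X → K))) = ⊤ := by
    apply alph_subalgebra_eq_top
    intro x y hxy
    obtain ⟨g, hg, hgxy⟩ := hsep x y hxy
    exact ⟨g, Algebra.subset_adjoin hg, hgxy⟩
  have h2 : Submodule.span K ((H : Set (X → K))) = ⊤ := by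
    have h3 := Algebra.adjoin_eq_span K ((H : Set (X → K)))
    have h4 : (Submonoid.closure ((H : Set (X → K))) : Set (X → K)) = (H : Set (X → K)) := by
      have := Submonoid.closure_eq H.toSubmonoid
      exact congrArg (fun S : Submonoid (X → K) => (S : Set (X → K))) this
    rw [h4, h1] at h3
    rw [← h3]
    rfl
  have h5 : (H : Set (X → K)) ⊆ (Submodule.span K (Set.range b) : Set (X → K)) := by
    intro g hg
    have hg' : g ∈ Submodule.span R (Set.range b) := by
      rw [← hsp]
      exact hg
    obtain ⟨r, hr⟩ := (Submodule.mem_span_range_iff_exists_fun R).mp hg'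
    rw [← hr]
    refine Submodule.sum_mem _ fun i _ => ?_
    exact alph_smul_mem_span _ (r i) (Submodule.subset_span ⟨i, rfl⟩)
  rw [eq_top_iff, ← h2]
  exact Submodule.span_le.mpr h5

end SpanTop

section DualEqv

variable {V : Type} [Fintype V] [MulAction GQ V]

/-- the dual family of an equivariant basis is equivariant -/
theorem alph_dual_eqv {n : ℕ} (b u : Fin n → (V → Qb)) (hb : ∀ j, AlphEqv (b j))
    (hub : ∀ i j, alphPair (u i) (b j) = if i = j then 1 else 0)
    (hexp' : ∀ c : V → Qb, c = ∑ i, alphPair c (b i) • u i) : ∀ i, AlphEqv (u i) := by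
  intro i σ v
  set u' : V → Qb := fun w => σ.symm (u i (σ • w)) with hu'
  have h1 : ∀ j, alphPair u' (b j) = if i = j then 1 else 0 := by
    intro j
    have h2 : σ (alphPair u' (b j)) = alphPair (u i) (b j) := by
      rw [alphPair, alphPair, map_sum]
      refine Fintype.sum_equiv (MulAction.toPerm σ) _ _ fun w => ?_
      rw [map_mul, hu']
      simp only [AlgEquiv.apply_symm_apply, MulAction.toPerm_apply]
      rw [hb j σ w]
    rw [hub] at h2
    have h3 : alphPair u' (b j) = σ.symm (if i = j then 1 else 0) := by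
      rw [← h2, AlgEquiv.symm_apply_apply]
    rw [h3]
    split_ifs
    · exact map_one _
    · exact map_zero _
  have h4 : u' = u i := by
    rw [hexp' u']
    rw [Finset.sum_eq_single i]
    · rw [h1, if_pos rfl, one_smul]
    · intro j _ hj
      rw [h1, if_neg (Ne.symm hj), zero_smul]
    · intro h
      exact absurd (Finset.mem_univ i) h
  have h5 := congrFun h4 v
  rw [hu'] at h5
  simp only at h5
  rw [← h5, AlgEquiv.apply_symm_apply]

end DualEqv

section EqvConv

variable {R : Type} [CommRing R] [Algebra R ℚ] [Algebra R Qb]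
  (htower : ∀ r : R, algebraMap R Qb r = algebraMap ℚ Qb (algebraMap R ℚ r))
variable {V : Type} [AddCommGroup V] [Fintype V] [DistribMulAction GQ V]

/-- the equivariant elements of the group algebra -/
def alphEqvConv : Subalgebra R (AddMonoidAlgebra Qb V) where
  carrier := {c | AlphEqv (alphCo c)}
  mul_mem' := by
    intro c d hc hd σ v
    rw [alphCo_mul, alphCo_mul, map_sum]
    refine (Fintype.sum_equiv (MulAction.toPerm σ) _ _ fun w => ?_).symm
    rw [MulAction.toPerm_apply, map_mul, hc σ w, ← smul_sub, hd σ (v - w)]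
  add_mem' := by
    intro c d hc hd σ v
    rw [alphCo_add, Pi.add_apply, Pi.add_apply, hc σ v, hd σ v, map_add]
  algebraMap_mem' := by
    classical
    intro r σ v
    have h1 : alphCo (algebraMap R (AddMonoidAlgebra Qb V) r) = Pi.single 0 (algebraMap R Qb r) := by
      rw [AddMonoidAlgebra.coe_algebraMap, Function.comp_apply, alphCo_single]
    rw [h1]
    by_cases hv : v = 0
    · subst hv
      rw [smul_zero, Pi.single_eq_same, htower, AlgEquiv.commutes]
    · have hv' : σ • v ≠ 0 := fun h => hv ((smul_eq_zero_iff_eq σ).mp h)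
      rw [Pi.single_eq_of_ne hv', Pi.single_eq_of_ne hv, map_zero]

theorem mem_alphEqvConv {c : AddMonoidAlgebra Qb V} :
    c ∈ alphEqvConv (R := R) htower ↔ AlphEqv (alphCo c) := Iff.rfl

end EqvConv

section Main

variable {R : Type} [CommRing R] [IsDomain R] [IsPrincipalIdealRing R] [Algebra R ℚ]
  [IsFractionRing R ℚ] [Algebra R Qb]
  (htower : ∀ r : R, algebraMap R Qb r = algebraMap ℚ Qb (algebraMap R ℚ r))
variable {V : Type} [AddCommGroup V] [Fintype V] [DistribMulAction GQ V]

include htower in
/-- `R`-independent equivariant families are `ℚ̄`-independent -/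
theorem alph_indep_of_eqv {n : ℕ} (h : Fin n → (V → Qb)) (heq : ∀ i, AlphEqv (h i))
    (hR : LinearIndependent R h) : LinearIndependent Qb h := by
  haveI := IsScalarTower.of_algebraMap_eq htower
  exact alph_artin h heq (hR.localization ℚ (nonZeroDivisors R))

include htower in
/-- **the dual of an order whose dual lattice is integral on all characters** -/
theorem alph_order_of_dual_integral (Mo : Subalgebra R (V → Qb)) (hfg : Mo.toSubmodule.FG)
    (hequiv : ∀ f ∈ Mo, ∀ (σ : GQ) (x : V), f (σ • x) = σ (f x))
    (hsep : ∀ x y : V, x ≠ y → ∃ f ∈ Mo, f x ≠ f y)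
    (hint : ∀ c : V → Qb, AlphEqv c → (∀ f ∈ Mo, alphPair c f ∈ (algebraMap R Qb).range) →
      ∀ χ : V → Qb, AlphIsChar χ → IsIntegral R (alphPair c χ)) :
    ∃ H : Subalgebra R (V → Qb), AlphIsOrd H := by
  classical
  have hinj := alph_injective_algebraMap htower
  obtain ⟨n, b, hb, hsp⟩ := alphGood_of_fg hinj Mo.toSubmodule hfg
    (alph_indep_of_equivariant htower Mo hequiv)
  have hbMo : ∀ j, b j ∈ Mo := fun j => by
    have : b j ∈ Mo.toSubmodule := by
      rw [hsp]
      exact Submodule.subset_span ⟨j, rfl⟩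
    exact this
  have htop := alph_span_basis_eq_top Mo hsep b hsp
  obtain ⟨u, hub, hexp, hexp'⟩ := alph_exists_dual b hb htop
  have hueq := alph_dual_eqv b u (fun j => hequiv (b j) (hbMo j)) hub hexp'
  -- `u i` pairs `Mo` into `R`
  have huMo : ∀ i, ∀ f ∈ Mo, alphPair (u i) f ∈ (algebraMap R Qb).range := by
    intro i f hf
    have hf' : f ∈ Submodule.span R (Set.range b) := by
      rw [← hsp]
      exact hf
    rw [alphPair_comm]
    refine alphPair_span_mem b hf' (u i) fun l => ?_
    rw [alphPair_comm, hub]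
    split_ifs
    · exact ⟨1, map_one _⟩
    · exact ⟨0, map_zero _⟩
  -- the convolution algebra generated by the dual family
  set B : Subalgebra R (AddMonoidAlgebra Qb V) :=
    Algebra.adjoin R (Set.range fun i => alphOf (u i)) with hB
  have hBu : ∀ i, alphOf (u i) ∈ B := fun i => Algebra.subset_adjoin ⟨i, rfl⟩
  have hBeq : B ≤ alphEqvConv (R := R) htower := by
    apply Algebra.adjoin_le
    rintro _ ⟨i, rfl⟩
    show AlphEqv (alphCo (alphOf (u i)))
    rw [alphCo_alphOf]
    exact hueq i
  have hBfg : B.toSubmodule.FG := by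
    refine fg_adjoin_of_finite (Set.finite_range _) ?_
    rintro _ ⟨i, rfl⟩
    apply alph_isIntegral_of_fourier
    intro χ hχ
    rw [alphCo_alphOf]
    exact hint (u i) (hueq i) (huMo i) χ hχ
  -- the coefficient lattice of `B` is good
  obtain ⟨m, β, hβ, hBβ⟩ := alphGood_of_fg hinj (B.toSubmodule.map (alphCoR R)) (hBfg.map _) (by
    intro k h hh hR
    refine alph_indep_of_eqv htower h (fun i => ?_) hR
    obtain ⟨c, hc, hch⟩ := hh i
    rw [← hch]
    exact hBeq hc)
  obtain ⟨H, hle, hsepH, hdec⟩ := alph_dualOrd Mo b u hsp hexp hexp' B hBu β hβ hBβ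
  refine ⟨H, ?_, fun f hf => hequiv f (hle hf), hsepH, fun f hf => alph_comul_of_dec (hdec f hf)⟩
  haveI : Module.Finite R ↥Mo.toSubmodule := Module.Finite.iff_fg.mpr hfg
  haveI : IsNoetherian R ↥Mo.toSubmodule := isNoetherian_of_isNoetherianRing_of_finite R _
  exact isNoetherian_submodule.mp ‹_› _ (fun f hf => hle hf)

end Main

end Fermat.Agent.Alpha
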