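/-
ALPHA, package P1-K (helper1), part 5: **criterion (K) over `ℤ_(ℓ)`**.

`alph_order_of_char` : if every character of the finite `G_ℚ`-module `V` lies in the `𝒱`-span of the
`G_ℚ`-equivariant functions with values integral over `ℤ_(ℓ)` (`𝒱` a valuation subring of `ℚ̄` over
`ℓ`), then `V` has a Hopf order over `ℤ_(ℓ)`.
-/
import Mathlib
import Fermat.Agent.Lib.Alpha.Hopf.Char

set_option autoImplicit false
set_option linter.unusedSectionVars false
set_option linter.unusedVariables false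
set_option linter.style.haveILetI false

namespace Fermat.Agent.Alpha

local notation "Qb" => AlgebraicClosure ℚ
local notation "GQ" => (AlgebraicClosure ℚ ≃ₐ[ℚ] AlgebraicClosure ℚ)

section PiInt

variable {R K X : Type} [CommRing R] [CommRing K] [Algebra R K] [Fintype X]

/-- a function with integral values is integral in the product algebra -/
theorem alph_isIntegral_pi (ψ : X → K) (h : ∀ x, IsIntegral R (ψ x)) : IsIntegral R ψ := by
  classical
  choose P hP hP0 using h
  have hP0' : ∀ x, Polynomial.aeval (ψ x) (P x) = 0 := fun x => by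
    rw [Polynomial.aeval_def]
    exact hP0 x
  refine ⟨∏ x, P x, Polynomial.monic_prod_of_monic _ _ fun x _ => hP x, ?_⟩
  rw [← Polynomial.aeval_def]
  funext x
  have h1 : (Polynomial.aeval ψ (∏ x, P x)) x
      = (Pi.evalAlgHom R (fun _ : X => K) x) (Polynomial.aeval ψ (∏ x, P x)) := rfl
  rw [h1, ← Polynomial.aeval_algHom_apply, map_prod]
  exact Finset.prod_eq_zero (Finset.mem_univ x) (hP0' x)

end PiInt

section Twist

variable {V : Type} [AddCommGroup V] [Fintype V] [DistribMulAction GQ V]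

/-- the Galois conjugate of a character -/
theorem AlphIsChar.conj {χ : V → Qb} (hχ : AlphIsChar χ) (σ : GQ) :
    AlphIsChar (fun w => σ (χ (σ⁻¹ • w))) := by
  refine ⟨?_, fun x y => ?_⟩
  · show σ (χ (σ⁻¹ • (0 : V))) = 1
    rw [smul_zero, hχ.1, map_one]
  · show σ (χ (σ⁻¹ • (x + y))) = σ (χ (σ⁻¹ • x)) * σ (χ (σ⁻¹ • y))
    rw [smul_add, hχ.2, map_mul]

/-- Galois acts on the Fourier coefficients of an equivariant element -/
theorem alphPair_conj {c χ : V → Qb} (hc : AlphEqv c) (σ : GQ) :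
    σ (alphPair c χ) = alphPair c (fun w => σ (χ (σ⁻¹ • w))) := by
  rw [alphPair, alphPair, map_sum]
  refine Fintype.sum_equiv (MulAction.toPerm σ) _ _ fun w => ?_
  rw [MulAction.toPerm_apply, map_mul, hc σ w, inv_smul_smul]

end Twist

section Zl

variable (ℓ : ℕ) [Fact ℓ.Prime]
variable {V : Type} [AddCommGroup V] [Fintype V] [DistribMulAction GQ V]

/-- **criterion (K)** -/
theorem alph_order_of_char (𝒱 : ValuationSubring Qb) (h𝒱 : 𝒱.LiesOverPrime ℓ)
    (hK : ∀ χ : V → Qb, AlphIsChar χ → χ ∈ Submodule.span ↥𝒱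
      {ψ : V → Qb | AlphEqv ψ ∧ ∀ x, IsIntegral ↥(GaloisRep.ratLocalizedAt ℓ) (ψ x)}) :
    AlphHasOrder ℓ V := by
  classical
  haveI : IsDiscreteValuationRing ↥(GaloisRep.ratLocalizedAt ℓ) :=
    Fermat.Agent.Igusa.zl_isDiscreteValuationRing ℓ
  have hℓ : ℓ.Prime := Fact.out
  have htower : ∀ r : ↥(GaloisRep.ratLocalizedAt ℓ),
      algebraMap ↥(GaloisRep.ratLocalizedAt ℓ) Qb r
        = algebraMap ℚ Qb (algebraMap ↥(GaloisRep.ratLocalizedAt ℓ) ℚ r) := fun r => rfl
  set S : Set (V → Qb) :=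
    {ψ : V → Qb | AlphEqv ψ ∧ ∀ x, IsIntegral ↥(GaloisRep.ratLocalizedAt ℓ) (ψ x)} with hS
  -- finitely many generators suffice
  set X := (alphIsChar_finite (K := Qb) (V := V)).toFinset with hX
  have hX' : ∀ χ : V → Qb, χ ∈ X ↔ AlphIsChar χ := fun χ => by
    rw [hX, Set.Finite.mem_toFinset]
    rfl
  have h1 : ∀ χ : V → Qb, ∃ T : Finset (V → Qb), AlphIsChar χ →
      (↑T ⊆ S ∧ χ ∈ Submodule.span ↥𝒱 (↑T : Set (V → Qb))) := by
    intro χ
    by_cases hχ : AlphIsChar χ
    · obtain ⟨T, hT, hχT⟩ := Submodule.mem_span_finite_of_mem_span (hK χ hχ)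
      exact ⟨T, fun _ => ⟨hT, hχT⟩⟩
    · exact ⟨∅, fun h => absurd h hχ⟩
  choose T hT using h1
  set Ψ : Finset (V → Qb) := X.biUnion T with hΨ
  have hΨS : (↑Ψ : Set (V → Qb)) ⊆ S := by
    intro ψ hψ
    rw [hΨ, Finset.mem_coe, Finset.mem_biUnion] at hψ
    obtain ⟨χ, hχ, hψχ⟩ := hψ
    exact (hT χ ((hX' χ).mp hχ)).1 hψχ
  have hχΨ : ∀ χ : V → Qb, AlphIsChar χ → χ ∈ Submodule.span ↥𝒱 (↑Ψ : Set (V → Qb)) := by
    intro χ hχ
    refine Submodule.span_mono ?_ (hT χ hχ).2
    intro ψ hψ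
    rw [hΨ, Finset.mem_coe, Finset.mem_biUnion]
    exact ⟨χ, (hX' χ).mpr hχ, hψ⟩
  -- the order generated by `Ψ`
  set Mo : Subalgebra ↥(GaloisRep.ratLocalizedAt ℓ) (V → Qb) :=
    Algebra.adjoin ↥(GaloisRep.ratLocalizedAt ℓ) (↑Ψ : Set (V → Qb)) with hMo
  have hfg : Mo.toSubmodule.FG :=
    fg_adjoin_of_finite Ψ.finite_toSet fun ψ hψ => alph_isIntegral_pi ψ (hΨS hψ).2
  have hequiv : ∀ f ∈ Mo, ∀ (σ : GQ) (x : V), f (σ • x) = σ (f x) := by
    intro f hf
    induction hf using Algebra.adjoin_induction with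
    | mem f hf => exact (hΨS hf).1
    | algebraMap r =>
      intro σ x
      show algebraMap ↥(GaloisRep.ratLocalizedAt ℓ) Qb r
        = σ (algebraMap ↥(GaloisRep.ratLocalizedAt ℓ) Qb r)
      rw [htower, AlgEquiv.commutes]
    | add f g _ _ ihf ihg =>
      intro σ x
      rw [Pi.add_apply, Pi.add_apply, ihf, ihg, map_add]
    | mul f g _ _ ihf ihg =>
      intro σ x
      rw [Pi.mul_apply, Pi.mul_apply, ihf, ihg, map_mul]
  have hsep : ∀ x y : V, x ≠ y → ∃ f ∈ Mo, f x ≠ f y := by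
    intro x y hxy
    obtain ⟨χ, hχ, hχxy⟩ := alph_char_sep (K := Qb) x y hxy
    by_contra hcon
    push Not at hcon
    apply hχxy
    have key : ∀ f ∈ Submodule.span ↥𝒱 (↑Ψ : Set (V → Qb)), f x = f y := by
      intro f hf
      induction hf using Submodule.span_induction with
      | mem ψ hψ => exact hcon ψ (Algebra.subset_adjoin hψ)
      | zero => rfl
      | add f g _ _ ihf ihg => rw [Pi.add_apply, Pi.add_apply, ihf, ihg]
      | smul a f _ ihf =>
        show (a : Qb) * f x = (a : Qb) * f y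
        rw [ihf]
    exact key χ (hχΨ χ hχ)
  -- integrality on characters
  have hint : ∀ c : V → Qb, AlphEqv c →
      (∀ f ∈ Mo, alphPair c f ∈ (algebraMap ↥(GaloisRep.ratLocalizedAt ℓ) Qb).range) →
      ∀ χ : V → Qb, AlphIsChar χ → IsIntegral ↥(GaloisRep.ratLocalizedAt ℓ) (alphPair c χ) := by
    intro c hc hcMo χ hχ
    apply alph_isIntegral_of_conj_mem 𝒱 h𝒱 hℓ
    intro σ
    rw [alphPair_conj hc σ]
    have key : ∀ f ∈ Submodule.span ↥𝒱 (↑Ψ : Set (V → Qb)), alphPair c f ∈ 𝒱 := by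
      intro f hf
      induction hf using Submodule.span_induction with
      | mem ψ hψ =>
        obtain ⟨r, hr⟩ := hcMo ψ (Algebra.subset_adjoin hψ)
        rw [← hr]
        exact alph_zl_mem 𝒱 h𝒱 r
      | zero =>
        rw [alphPair_zero_right]
        exact 𝒱.zero_mem
      | add f g _ _ ihf ihg =>
        rw [alphPair_add_right]
        exact 𝒱.add_mem _ _ ihf ihg
      | smul a f _ ihf =>
        have h3 : a • f = (a : Qb) • f := rfl
        rw [h3, alphPair_smul_right]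
        exact 𝒱.mul_mem _ _ a.2 ihf
    exact key _ (hχΨ _ (hχ.conj σ))
  exact alph_order_of_dual_integral htower Mo hfg hequiv hsep hint

end Zl

end Fermat.Agent.Alpha
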