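/-
ALPHA (helper1): **the END theorem, modulo unramified descent (UD)** (file EndUd; `alph_end` itself is in End.lean).

A finite family `m i : V → ℚ̄` of `𝒱`-valued functions, equivariant for the inertia group of `𝒱`
(`𝒱` a valuation subring of `ℚ̄` over `ℓ`), separating the points of the finite `G_ℚ`-module `V` and
whose comultiplications lie in the `𝒱`-algebra they generate, produces a Hopf order of `V` over
`ℤ_(ℓ)`:

characters lie in `𝒱[m]` (`alpu_char_mem`, helper6) `⊆ 𝒱 · Map_I(V, 𝒱)`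
`⊆ 𝒱 · Map_G(V, integral)` (UD, hypothesis `hUD` here), and criterion (K) `alph_order_of_char`.
-/
import Mathlib
import Fermat.Agent.Lib.Alpha.Hopf.CharZl
import Fermat.Agent.Lib.Alpha.Unram.Char

set_option autoImplicit false
set_option linter.unusedSectionVars false
set_option linter.unusedVariables false
set_option linter.style.haveILetI false

namespace Fermat.Agent.Alpha

local notation "Qb" => AlgebraicClosure ℚ
local notation "GQ" => (AlgebraicClosure ℚ ≃ₐ[ℚ] AlgebraicClosure ℚ)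

section End

variable (ℓ : ℕ) [Fact ℓ.Prime]
variable {V : Type} [AddCommGroup V] [Fintype V] [DistribMulAction GQ V]

/-- the `𝒱`-algebra generated by a family of `𝒱`-valued inertia-equivariant functions lies in the
`𝒱`-span of all such functions -/
theorem alph_adjoin_le_span (𝒱 : ValuationSubring Qb) {ι : Type} (m : ι → V → Qb)
    (hint : ∀ i x, m i x ∈ 𝒱)
    (hI : ∀ i, ∀ τ ∈ 𝒱.inertiaSubgroupIn ℚ, ∀ x, m i (τ • x) = τ (m i x)) :
    (Algebra.adjoin ↥𝒱 (Set.range m)).toSubmodule ≤ Submodule.span ↥𝒱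
      {φ : V → Qb | (∀ x, φ x ∈ 𝒱) ∧ ∀ τ ∈ 𝒱.inertiaSubgroupIn ℚ, ∀ x, φ (τ • x) = τ (φ x)} := by
  set P : Set (V → Qb) :=
    {φ : V → Qb | (∀ x, φ x ∈ 𝒱) ∧ ∀ τ ∈ 𝒱.inertiaSubgroupIn ℚ, ∀ x, φ (τ • x) = τ (φ x)} with hP
  let S : Submonoid (V → Qb) :=
    { carrier := P
      mul_mem' := fun {f g} hf hg => ⟨fun x => 𝒱.mul_mem _ _ (hf.1 x) (hg.1 x), fun τ hτ x => by
        rw [Pi.mul_apply, Pi.mul_apply, hf.2 τ hτ x, hg.2 τ hτ x, map_mul]⟩
      one_mem' := ⟨fun x => 𝒱.one_mem, fun τ hτ x => (map_one τ).symm⟩ }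
  have h1 : (Submonoid.closure P : Set (V → Qb)) = P := by
    have : Submonoid.closure (S : Set (V → Qb)) = S := Submonoid.closure_eq S
    exact congrArg (fun T : Submonoid (V → Qb) => (T : Set (V → Qb))) this
  have h2 := Algebra.adjoin_eq_span ↥𝒱 P
  rw [h1] at h2
  rw [← h2]
  have h3 : Set.range m ⊆ P := by
    rintro _ ⟨i, rfl⟩
    exact ⟨hint i, hI i⟩
  exact fun f hf => Algebra.adjoin_mono h3 hf

/-- **END, modulo unramified descent** -/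
theorem alph_end_of_ud (𝒱 : ValuationSubring Qb) (h𝒱 : 𝒱.LiesOverPrime ℓ)
    (hUD : ∀ φ : V → Qb, (∀ x, φ x ∈ 𝒱) →
      (∀ τ ∈ 𝒱.inertiaSubgroupIn ℚ, ∀ x, φ (τ • x) = τ (φ x)) →
      φ ∈ Submodule.span ↥𝒱 {ψ : V → Qb | (∀ (σ : GQ) (x : V), ψ (σ • x) = σ (ψ x)) ∧
        ∀ x, IsIntegral ↥(GaloisRep.ratLocalizedAt ℓ) (ψ x)})
    {ι : Type} [Finite ι] (m : ι → V → Qb) (hint : ∀ i x, m i x ∈ 𝒱)
    (hI : ∀ i, ∀ τ ∈ 𝒱.inertiaSubgroupIn ℚ, ∀ x, m i (τ • x) = τ (m i x))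
    (hsep : ∀ x y : V, x ≠ y → ∃ i, m i x ≠ m i y)
    (hcomul : ∀ i, ∃ (n : ℕ) (a b : Fin n → V → Qb),
      (∀ t, a t ∈ Algebra.adjoin ↥𝒱 (Set.range m)) ∧
      (∀ t, b t ∈ Algebra.adjoin ↥𝒱 (Set.range m)) ∧ ∀ x y, m i (x + y) = ∑ t, a t x * b t y) :
    AlphHasOrder ℓ V := by
  apply alph_order_of_char ℓ 𝒱 h𝒱
  intro χ hχ
  have h1 : χ ∈ Algebra.adjoin ↥𝒱 (Set.range m) :=
    alpu_char_mem 𝒱 m hint hsep hcomul χ hχ.1 hχ.2
  have h2 := alph_adjoin_le_span 𝒱 m hint hI h1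
  refine (Submodule.span_le.mpr ?_) h2
  intro φ hφ
  exact hUD φ hφ.1 hφ.2

end End

end Fermat.Agent.Alpha
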