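/-
ALPHA (helper1): **the END theorem** `alph_end`.

A finite family `m i : V → ℚ̄` of `𝒱`-valued functions, equivariant for the inertia group of `𝒱`
(`𝒱` a valuation subring of `ℚ̄` over `ℓ`), separating the points of the finite `G_ℚ`-module `V`
(with open stabilisers) and whose comultiplications lie in the `𝒱`-algebra they generate, produces
a Hopf order of `V` over `ℤ_(ℓ)`:  `alph_end_of_ud` (EndUd.lean) + unramified descent `alpu_span`
(helper6, Unram/Span.lean).
-/
import Mathlib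
import Fermat.Agent.Lib.Alpha.Hopf.EndUd
import Fermat.Agent.Lib.Alpha.Unram.Span

set_option autoImplicit false
set_option linter.unusedSectionVars false
set_option linter.unusedVariables false
set_option linter.style.haveILetI false

namespace Fermat.Agent.Alpha

local notation "Qb" => AlgebraicClosure ℚ
local notation "GQ" => (AlgebraicClosure ℚ ≃ₐ[ℚ] AlgebraicClosure ℚ)

/-- **END**: an inertia-equivariant, `𝒱`-integral, separating family closed under comultiplication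
gives a Hopf order over `ℤ_(ℓ)` -/
theorem alph_end (ℓ : ℕ) [Fact ℓ.Prime] {V : Type} [AddCommGroup V] [Fintype V]
    [DistribMulAction GQ V] (𝒱 : ValuationSubring Qb) (h𝒱 : 𝒱.LiesOverPrime ℓ)
    (hopen : ∀ x : V, ∃ L : IntermediateField ℚ Qb, FiniteDimensional ℚ L ∧
      ∀ σ : GQ, (∀ a ∈ L, σ a = a) → σ • x = x)
    {ι : Type} [Finite ι] (m : ι → V → Qb) (hint : ∀ i x, m i x ∈ 𝒱)
    (hI : ∀ i, ∀ τ ∈ 𝒱.inertiaSubgroupIn ℚ, ∀ x, m i (τ • x) = τ (m i x))
    (hsep : ∀ x y : V, x ≠ y → ∃ i, m i x ≠ m i y)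
    (hcomul : ∀ i, ∃ (n : ℕ) (a b : Fin n → V → Qb),
      (∀ t, a t ∈ Algebra.adjoin ↥𝒱 (Set.range m)) ∧
      (∀ t, b t ∈ Algebra.adjoin ↥𝒱 (Set.range m)) ∧ ∀ x y, m i (x + y) = ∑ t, a t x * b t y) :
    AlphHasOrder ℓ V :=
  alph_end_of_ud ℓ 𝒱 h𝒱 (fun φ hφ hIφ => alpu_span ℓ 𝒱 h𝒱 hopen φ hφ hIφ) m hint hI hsep hcomul

end Fermat.Agent.Alpha
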